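/-
helper66, S25 (Jacobian exists), package CURVE = "the curve as two affine charts".
INTERFACE FILE: definitions + the statements `Stmt_*` of the leaves.  Plan: NOTES/plan/S25.md.

`C` is a proper smooth integral curve over an algebraically closed field `k` with a `k`-point `e`.
A rational function `x` with a pole at `e` gives two affine opens
`U₀ = {x regular}`, `U₁ = {1/x regular}` with `U₀ ∪ U₁ = C`, `U₀ ∩ U₁ = D(x) = D(y)`, `y = 1/x`,
and `Γ(C, U₀)` finite over `k[x]`, `Γ(C, U₁)` finite over `k[y]`.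
No projective line is needed: `U₀ → Spec k[X]` is proper by the valuative criterion
and has finite fibres, hence is finite by Zariski's main theorem (which is in Mathlib).
-/
import Mathlib

set_option autoImplicit false

universe u

open CategoryTheory CategoryTheory.Limits AlgebraicGeometry Polynomial

namespace Fermat.Agent.S25.Curve

section Defs

variable {k : Type u} [Field k] {C : Scheme.{u}}

/-- The constants as sections over an open `U`. -/
noncomputable def kSec (c : C ⟶ Spec (CommRingCat.of k)) (U : C.Opens) : k →+* Γ(C, U) :=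
  (c.appLE ⊤ U le_top).hom.comp (Scheme.ΓSpecIso (CommRingCat.of k)).inv.hom

/-- The ring homomorphism `k[X] → Γ(C, U)`, `X ↦ x`, constants via `kSec`. -/
noncomputable def polyTo (c : C ⟶ Spec (CommRingCat.of k)) (U : C.Opens) (x : Γ(C, U)) :
    k[X] →+* Γ(C, U) :=
  Polynomial.eval₂RingHom (kSec c U) x

/-- Restriction of sections. -/
noncomputable def res {U V : C.Opens} (h : V ≤ U) : Γ(C, U) →+* Γ(C, V) :=
  (C.presheaf.map (homOfLE h).op).hom

/-- Two-chart data on `C`: `U₀ ∪ U₁ = C`, `U₀ ∩ U₁ = D(x) = D(y)`, `x y = 1`. -/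
structure IsTwoChart (U₀ U₁ : C.Opens) (x : Γ(C, U₀)) (y : Γ(C, U₁)) : Prop where
  cover : U₀ ⊔ U₁ = ⊤
  basic₀ : C.basicOpen x = U₀ ⊓ U₁
  basic₁ : C.basicOpen y = U₀ ⊓ U₁
  mul_eq_one : res (inf_le_left : U₀ ⊓ U₁ ≤ U₀) x * res (inf_le_right : U₀ ⊓ U₁ ≤ U₁) y = 1

end Defs

/-! ## The leaves of package CURVE -/

/-- **CURVE-BCOVER** (risk R1): the two-chart cover of the curve, with the marked point `e` at
infinity (`e ∈ U₁ ∖ U₀`), both charts affine and finite over the affine line. -/
def Stmt_BCOVER : Prop :=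
  ∀ (k : Type u) [Field k] [IsAlgClosed k] {C : Scheme.{u}} (c : C ⟶ Spec (CommRingCat.of k))
    [IsProper c] [SmoothOfRelativeDimension 1 c] [IsIntegral C]
    (e : Spec (CommRingCat.of k) ⟶ C), e ≫ c = 𝟙 _ →
    ∃ (U₀ U₁ : C.Opens) (x : Γ(C, U₀)) (y : Γ(C, U₁)),
      IsTwoChart U₀ U₁ x y ∧ IsAffineOpen U₀ ∧ IsAffineOpen U₁ ∧
      (∀ z, e z ∈ U₁ ∧ e z ∉ U₀) ∧
      (polyTo c U₀ x).Finite ∧ (polyTo c U₁ y).Finite ∧
      Function.Injective (polyTo c U₀ x) ∧ Function.Injective (polyTo c U₁ y)

/-- **CURVE-DOM**: the domain of definition of a rational function on an integral scheme, with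
the section it defines there. -/
def Stmt_DOM : Prop :=
  ∀ {X : Scheme.{u}} [IsIntegral X] (f : X.functionField),
    ∃ (U : X.Opens) (_ : Nonempty U) (s : Γ(X, U)),
      X.germToFunctionField U s = f ∧
      ∀ p : X, p ∈ U ↔ f ∈ Set.range (algebraMap (X.presheaf.stalk p) X.functionField)

/-- **CURVE-DIM1**: a smooth integral scheme of relative dimension one over a field is a curve:
every point other than the generic point has codimension one (so its local ring is a discrete
valuation ring), and a proper closed subset is finite. -/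
def Stmt_DIM1 : Prop :=
  ∀ (k : Type u) [Field k] {C : Scheme.{u}} (c : C ⟶ Spec (CommRingCat.of k))
    [LocallyOfFiniteType c] [QuasiCompact c] [SmoothOfRelativeDimension 1 c] [IsIntegral C],
    (∀ p : C, p ≠ genericPoint C → Order.coheight p = 1) ∧
    (∀ p : C, p ≠ genericPoint C → IsClosed ({p} : Set C)) ∧
    (∀ Z : Set C, IsClosed Z → Z ≠ Set.univ → Z.Finite)

/-- **CURVE-FINCHART** (abstract, no curve): two-chart data on a proper `k`-scheme such that the
map `U₀ → Spec k[X]` given by `x` has finite fibres; then `U₀` is affine and finite over `k[X]`.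
(Valuative criterion: a centre outside `U₀` lies in `U₁ ∖ D(y)`, where `y` is in the maximal
ideal, while `x` is in the valuation ring and `x y = 1`.  Then Zariski's main theorem.) -/
def Stmt_FINCHART : Prop :=
  ∀ (k : Type u) [Field k] {C : Scheme.{u}} (c : C ⟶ Spec (CommRingCat.of k)) [IsProper c]
    (U₀ U₁ : C.Opens) (x : Γ(C, U₀)) (y : Γ(C, U₁)), IsTwoChart U₀ U₁ x y →
    (∀ P : Ideal k[X], P.IsPrime →
      {p : C | ∃ hp : p ∈ U₀,
        Ideal.comap ((C.presheaf.germ U₀ p hp).hom.comp (polyTo c U₀ x))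
          (IsLocalRing.maximalIdeal (C.presheaf.stalk p)) = P}.Finite) →
    IsAffineOpen U₀ ∧ (polyTo c U₀ x).Finite

/-- **CURVE-H0**: the global functions of a proper integral scheme over an algebraically closed
field are the constants. -/
def Stmt_H0 : Prop :=
  ∀ (k : Type u) [Field k] [IsAlgClosed k] {C : Scheme.{u}} (c : C ⟶ Spec (CommRingCat.of k))
    [IsProper c] [IsIntegral C], Function.Bijective (kSec c ⊤)

/-- **CURVE-BCOVER-SEP**: as `Stmt_BCOVER`, and moreover `x` is a separating variable: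
over a nonempty basic open `D(h)` of `U₀` the chart is etale over the affine line. -/
def Stmt_BCOVER_SEP : Prop :=
  ∀ (k : Type u) [Field k] [IsAlgClosed k] {C : Scheme.{u}} (c : C ⟶ Spec (CommRingCat.of k))
    [IsProper c] [SmoothOfRelativeDimension 1 c] [IsIntegral C]
    (e : Spec (CommRingCat.of k) ⟶ C), e ≫ c = 𝟙 _ →
    ∃ (U₀ U₁ : C.Opens) (x : Γ(C, U₀)) (y : Γ(C, U₁)),
      IsTwoChart U₀ U₁ x y ∧ IsAffineOpen U₀ ∧ IsAffineOpen U₁ ∧
      (∀ z, e z ∈ U₁ ∧ e z ∉ U₀) ∧
      (polyTo c U₀ x).Finite ∧ (polyTo c U₁ y).Finite ∧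
      Function.Injective (polyTo c U₀ x) ∧ Function.Injective (polyTo c U₁ y) ∧
      ∃ h : Γ(C, U₀), h ≠ 0 ∧
        ((res (C.basicOpen_le h)).comp (polyTo c U₀ x)).Etale

end Fermat.Agent.S25.Curve
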