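/-
helper93, S25 (Jacobian exists), package CURVE, leaf CURVE-H0:
the global functions of a proper integral scheme over an algebraically closed field are the
constants (`Curve.Stmt_H0`).

Proof: `Γ(C, ⊤)` is a domain and integral over `k` (`isIntegral_appTop_of_universallyClosed`),
and an algebraically closed field has no integral extension which is a domain.
-/
import Fermat.Agent.S25.Curve.Defs

set_option autoImplicit false

universe u

open CategoryTheory CategoryTheory.Limits AlgebraicGeometry Polynomial

namespace Fermat.Agent.S25.Curve.H93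

/-- The constants are integral in the global sections of a universally closed `k`-scheme. -/
theorem kSec_top_isIntegral {k : Type u} [Field k] {C : Scheme.{u}}
    (c : C ⟶ Spec (CommRingCat.of k)) [UniversallyClosed c] : (kSec c ⊤).IsIntegral := by
  have h1 : c.appTop.hom.IsIntegral := isIntegral_appTop_of_universallyClosed c
  have h2 : (Scheme.ΓSpecIso (CommRingCat.of k)).inv.hom.IsIntegral :=
    RingHom.isIntegral_of_surjective _
      ((ConcreteCategory.bijective_of_isIso (Scheme.ΓSpecIso (CommRingCat.of k)).inv).2)
  have h3 : ((c.appTop).hom.comp (Scheme.ΓSpecIso (CommRingCat.of k)).inv.hom).IsIntegral :=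
    RingHom.IsIntegral.trans _ _ h2 h1
  have h4 : kSec c ⊤ = (c.appTop).hom.comp (Scheme.ΓSpecIso (CommRingCat.of k)).inv.hom := by
    unfold kSec
    congr 1
    rw [Scheme.Hom.appLE]
    simp
  rw [h4]
  exact h3

/-- **CURVE-H0**: `H⁰(C, 𝒪) = k`. -/
theorem stmt_H0 : Stmt_H0.{u} := by
  intro k _ _ C c _ _
  exact IsAlgClosed.ringHom_bijective_of_isIntegral (kSec c ⊤) (kSec_top_isIntegral c)

end Fermat.Agent.S25.Curve.H93
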