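import Fermat.Agent.S25.Curve.Defs
import Fermat.Agent.S25.Curve.H93_H0
import Fermat.Agent.S25.LB.Defs

/-!
# S25, package CURVE, link leaf CURVE-DATUM (helper7)

From a two-chart cover `(U₀, U₁, x, y)` of the curve `C` (the output of `Curve.Stmt_BCOVER`) we
build the curve datum `datumOf : LB.CurveDatum k` with
`B0 = Γ(C, U₀)`, `B1 = Γ(C, U₁)`, `B01 = Γ(C, U₀ ⊓ U₁)` (as TYPES, definitionally), `i0`, `i1` the
restrictions, `x0 = x`, `z1 = y`, `e` = evaluation at the marked point, and prove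
`datumOf_isGood : (datumOf …).IsGood`.
-/

set_option autoImplicit false
set_option linter.style.haveILetI false

universe u

open CategoryTheory CategoryTheory.Limits AlgebraicGeometry Polynomial TopologicalSpace Opposite

namespace Fermat.Agent.S25.Curve.H7

variable {k : Type u} [Field k] {C : Scheme.{u}} (c : C ⟶ Spec (CommRingCat.of k))

/-- `kSec` is compatible with restriction. -/
theorem h7_res_kSec {U V : C.Opens} (h : V ≤ U) (a : k) : res h (kSec c U a) = kSec c V a := by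
  unfold res kSec
  simp only [RingHom.coe_comp, Function.comp_apply]
  rw [← CommRingCat.comp_apply, Scheme.Hom.appLE_map]

/-- The `k`-algebra structure on the sections over `U`. -/
@[reducible] noncomputable def h7_algSec (U : C.Opens) : Algebra k Γ(C, U) := (kSec c U).toAlgebra

/-- Restriction of sections as a `k`-algebra homomorphism. -/
noncomputable def h7_resAlg {U V : C.Opens} (h : V ≤ U) :
    @AlgHom k Γ(C, U) Γ(C, V) _ _ _ (h7_algSec c U) (h7_algSec c V) :=
  letI := h7_algSec c U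
  letI := h7_algSec c V
  { res h with commutes' := fun a => h7_res_kSec c h a }

theorem h7_resAlg_apply {U V : C.Opens} (h : V ≤ U) (s : Γ(C, U)) :
    h7_resAlg c h s = res h s := rfl

/-- Evaluation of sections at the `k`-point `e`. -/
noncomputable def h7_ev (e : Spec (CommRingCat.of k) ⟶ C) (U : C.Opens)
    (hU : ∀ z, e z ∈ U) : Γ(C, U) →+* k :=
  (Scheme.ΓSpecIso (CommRingCat.of k)).hom.hom.comp
    (e.appLE U ⊤ (fun z _ => hU z)).hom

theorem h7_ev_kSec (e : Spec (CommRingCat.of k) ⟶ C) (he : e ≫ c = 𝟙 _) (U : C.Opens)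
    (hU : ∀ z, e z ∈ U) (a : k) : h7_ev e U hU (kSec c U a) = a := by
  unfold h7_ev kSec
  simp only [RingHom.coe_comp, Function.comp_apply]
  rw [← CommRingCat.comp_apply (c.appLE ⊤ U le_top), Scheme.Hom.appLE_comp_appLE]
  have h1 : (e ≫ c).appLE ⊤ ⊤ le_top = 𝟙 _ := by
    rw [he]
    simp [Scheme.Hom.appLE]
  rw [h1]
  simp

/-- A section over `U` vanishes at the `k`-point `e` if `e` misses its basic open. -/
theorem h7_ev_eq_zero (e : Spec (CommRingCat.of k) ⟶ C) (U : C.Opens)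
    (hU : ∀ z, e z ∈ U) (s : Γ(C, U)) (hs : ∀ z, e z ∉ C.basicOpen s) :
    h7_ev e U hU s = 0 := by
  unfold h7_ev
  simp only [RingHom.coe_comp, Function.comp_apply]
  have h0 : (e.appLE U ⊤ (fun z _ => hU z)).hom s = 0 := by
    rw [← AlgebraicGeometry.basicOpen_eq_bot_iff]
    rw [Scheme.Hom.appLE, CommRingCat.comp_apply, Scheme.basicOpen_res,
      ← Scheme.preimage_basicOpen]
    ext z
    simp only [Opens.coe_inf, Opens.coe_top, Set.univ_inter, Opens.coe_bot, Set.mem_empty_iff_false,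
      iff_false]
    exact hs z
  rw [h0, map_zero]

/-- The curve datum of a two-chart cover with a marked point at infinity. -/
noncomputable def datumOf (U₀ U₁ : C.Opens) (x : Γ(C, U₀)) (y : Γ(C, U₁))
    (h : IsTwoChart U₀ U₁ x y) (e : Spec (CommRingCat.of k) ⟶ C) (he : e ≫ c = 𝟙 _)
    (heU : ∀ z, e z ∈ U₁ ∧ e z ∉ U₀) : LB.CurveDatum k :=
  letI a0 := h7_algSec c U₀
  letI a1 := h7_algSec c U₁
  letI a01 := h7_algSec c (U₀ ⊓ U₁)
  { B0 := Γ(C, U₀)
    B1 := Γ(C, U₁)
    B01 := Γ(C, U₀ ⊓ U₁)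
    alg0 := a0
    alg1 := a1
    alg01 := a01
    i0 := h7_resAlg c inf_le_left
    i1 := h7_resAlg c inf_le_right
    x0 := x
    z1 := y
    hxz := h.mul_eq_one
    e := { h7_ev e U₁ (fun z => (heU z).1) with
      commutes' := fun a => h7_ev_kSec c e he U₁ (fun z => (heU z).1) a }
    he := h7_ev_eq_zero e U₁ (fun z => (heU z).1) y (fun z hz => by
      rw [h.basic₁] at hz
      exact (heU z).2 hz.1) }

section API

variable (U₀ U₁ : C.Opens) (x : Γ(C, U₀)) (y : Γ(C, U₁)) (h : IsTwoChart U₀ U₁ x y)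
  (e : Spec (CommRingCat.of k) ⟶ C) (he : e ≫ c = 𝟙 _) (heU : ∀ z, e z ∈ U₁ ∧ e z ∉ U₀)

theorem datumOf_x0 : (datumOf c U₀ U₁ x y h e he heU).x0 = x := rfl

theorem datumOf_z1 : (datumOf c U₀ U₁ x y h e he heU).z1 = y := rfl

theorem datumOf_i0_apply (s : Γ(C, U₀)) :
    (datumOf c U₀ U₁ x y h e he heU).i0 s = res (inf_le_left : U₀ ⊓ U₁ ≤ U₀) s := rfl

theorem datumOf_i1_apply (s : Γ(C, U₁)) :
    (datumOf c U₀ U₁ x y h e he heU).i1 s = res (inf_le_right : U₀ ⊓ U₁ ≤ U₁) s := rfl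

theorem datumOf_algebraMap0 (a : k) :
    algebraMap k (datumOf c U₀ U₁ x y h e he heU).B0 a = kSec c U₀ a := rfl

theorem datumOf_algebraMap1 (a : k) :
    algebraMap k (datumOf c U₀ U₁ x y h e he heU).B1 a = kSec c U₁ a := rfl

theorem datumOf_algebraMap01 (a : k) :
    algebraMap k (datumOf c U₀ U₁ x y h e he heU).B01 a = kSec c (U₀ ⊓ U₁) a := rfl

theorem datumOf_e_apply (s : Γ(C, U₁)) :
    (datumOf c U₀ U₁ x y h e he heU).e s = h7_ev e U₁ (fun z => (heU z).1) s := rfl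

end API

/-- Sections over a basic open of an affine open are the localisation (any name of the basic
open). -/
theorem h7_loc (U W : C.Opens) (hU : IsAffineOpen U) (x : Γ(C, U)) (hW : C.basicOpen x = W)
    (le : W ≤ U) : @IsLocalization.Away Γ(C, U) _ x Γ(C, W) _ (res le).toAlgebra := by
  subst hW
  exact hU.isLocalization_basicOpen x

/-- The source of an injective `polyTo` is a nonempty open. -/
theorem h7_nonempty_of_injective (U : C.Opens) (x : Γ(C, U))
    (hinj : Function.Injective (polyTo c U x)) : Nonempty U := by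
  by_contra hne
  have hU : U = ⊥ := by
    ext z
    simp only [Opens.coe_bot, Set.mem_empty_iff_false, iff_false]
    exact fun hz => hne ⟨⟨z, hz⟩⟩
  subst hU
  have : (X : k[X]) = 0 := hinj (Subsingleton.elim _ _)
  exact Polynomial.X_ne_zero this

/-- `aeval` for the algebra structure `h7_algSec` is `polyTo`. -/
theorem h7_aeval_eq_polyTo (U : C.Opens) (x : Γ(C, U)) :
    letI := h7_algSec c U
    (Polynomial.aeval (R := k) x).toRingHom = polyTo c U x := by
  letI := h7_algSec c U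
  apply Polynomial.ringHom_ext
  · intro a
    change Polynomial.aeval (R := k) x (Polynomial.C a) = polyTo c U x (Polynomial.C a)
    rw [Polynomial.aeval_C, polyTo, Polynomial.coe_eval₂RingHom, Polynomial.eval₂_C]
    rfl
  · change Polynomial.aeval (R := k) x Polynomial.X = polyTo c U x Polynomial.X
    rw [Polynomial.aeval_X, polyTo, Polynomial.coe_eval₂RingHom, Polynomial.eval₂_X]

/-- Sections of a smooth `k`-scheme over an affine open form a smooth `k`-algebra. -/
theorem h7_smooth [Smooth c] (U : C.Opens) (hU : IsAffineOpen U) :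
    @Algebra.Smooth k _ Γ(C, U) _ (h7_algSec c U) := by
  have h1 : (c.appLE ⊤ U le_top).hom.Smooth :=
    Smooth.smooth_appLE c (isAffineOpen_top _) hU le_top
  have h2 : (Scheme.ΓSpecIso (CommRingCat.of k)).inv.hom.Smooth :=
    RingHom.Smooth.of_bijective
      (ConcreteCategory.bijective_of_isIso (Scheme.ΓSpecIso (CommRingCat.of k)).inv)
  have h3 : (kSec c U).Smooth := h2.comp h1
  exact h3

/-- Two sections on the two charts which agree on the overlap come from a global section. -/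
theorem h7_glue (U₀ U₁ : C.Opens) (hcov : U₀ ⊔ U₁ = ⊤) (b0 : Γ(C, U₀)) (b1 : Γ(C, U₁))
    (hb : res (inf_le_left : U₀ ⊓ U₁ ≤ U₀) b0 = res (inf_le_right : U₀ ⊓ U₁ ≤ U₁) b1) :
    ∃ s : Γ(C, ⊤), res (le_top : U₀ ≤ ⊤) s = b0 := by
  let F : TopCat.Sheaf CommRingCat C.toTopCat := C.sheaf
  let t : F.1.obj (op (U₀ ⊔ U₁)) := (F.objSupIsoProdEqLocus U₀ U₁).inv ⟨(b0, b1), hb⟩
  have ht : F.1.map (homOfLE le_sup_left).op t = b0 :=
    TopCat.Sheaf.objSupIsoProdEqLocus_inv_fst F U₀ U₁ ⟨(b0, b1), hb⟩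
  refine ⟨C.presheaf.map (eqToHom hcov.symm).op t, ?_⟩
  unfold res
  rw [← CommRingCat.comp_apply, ← Functor.map_comp]
  exact ht

/-- **CURVE-DATUM**: the curve datum of a two-chart cover as in `Stmt_BCOVER` is good. -/
theorem datumOf_isGood [IsAlgClosed k] [IsProper c] [SmoothOfRelativeDimension 1 c]
    [IsIntegral C] (U₀ U₁ : C.Opens) (x : Γ(C, U₀)) (y : Γ(C, U₁))
    (h : IsTwoChart U₀ U₁ x y) (e : Spec (CommRingCat.of k) ⟶ C) (he : e ≫ c = 𝟙 _)
    (heU : ∀ z, e z ∈ U₁ ∧ e z ∉ U₀) (hA0 : IsAffineOpen U₀) (hA1 : IsAffineOpen U₁)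
    (hf0 : (polyTo c U₀ x).Finite) (hf1 : (polyTo c U₁ y).Finite)
    (hi0 : Function.Injective (polyTo c U₀ x)) (hi1 : Function.Injective (polyTo c U₁ y)) :
    (datumOf c U₀ U₁ x y h e he heU).IsGood := by
  haveI : Smooth c := SmoothOfRelativeDimension.smooth 1 c
  haveI n0 : Nonempty U₀ := h7_nonempty_of_injective c U₀ x hi0
  haveI n1 : Nonempty U₁ := h7_nonempty_of_injective c U₁ y hi1
  haveI n01 : Nonempty (U₀ ⊓ U₁ : C.Opens) := by
    obtain ⟨z, hz⟩ := nonempty_preirreducible_inter U₀.2 U₁.2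
      (Set.nonempty_coe_sort.1 n0) (Set.nonempty_coe_sort.1 n1)
    exact ⟨⟨z, hz⟩⟩
  refine
    { loc0 := h7_loc U₀ (U₀ ⊓ U₁) hA0 x h.basic₀ inf_le_left
      loc1 := h7_loc U₁ (U₀ ⊓ U₁) hA1 y h.basic₁ inf_le_right
      dom0 := (inferInstance : IsDomain Γ(C, U₀))
      dom1 := (inferInstance : IsDomain Γ(C, U₁))
      dom01 := (inferInstance : IsDomain Γ(C, U₀ ⊓ U₁))
      fin0 := ?_
      fin1 := ?_
      trans0 := ?_
      smooth0 := h7_smooth c U₀ hA0
      smooth1 := h7_smooth c U₁ hA1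
      h0 := ?_ }
  · have hp := h7_aeval_eq_polyTo c U₀ x
    letI := h7_algSec c U₀
    change (Polynomial.aeval (R := k) x).toRingHom.Finite
    rw [hp]
    exact hf0
  · have hp := h7_aeval_eq_polyTo c U₁ y
    letI := h7_algSec c U₁
    change (Polynomial.aeval (R := k) y).toRingHom.Finite
    rw [hp]
    exact hf1
  · have := h7_aeval_eq_polyTo c U₀ x
    intro p q hpq
    apply hi0
    rw [← this]
    exact hpq
  · intro b0 b1 hb
    obtain ⟨s, hs⟩ := h7_glue U₀ U₁ h.cover b0 b1 hb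
    obtain ⟨a, rfl⟩ := (H93.stmt_H0 k c).2 s
    refine ⟨a, ?_⟩
    rw [← hs]
    exact h7_res_kSec c le_top a

/-- **CURVE-DATUM**, existential form on top of `Stmt_BCOVER`: every curve has a good curve
datum whose rings are the sections over a two-chart cover. -/
theorem exists_datum_of_BCOVER (hB : Stmt_BCOVER.{u}) [IsAlgClosed k] [IsProper c]
    [SmoothOfRelativeDimension 1 c] [IsIntegral C] (e : Spec (CommRingCat.of k) ⟶ C)
    (he : e ≫ c = 𝟙 _) :
    ∃ (U₀ U₁ : C.Opens) (x : Γ(C, U₀)) (y : Γ(C, U₁)) (h : IsTwoChart U₀ U₁ x y)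
      (heU : ∀ z, e z ∈ U₁ ∧ e z ∉ U₀),
      IsAffineOpen U₀ ∧ IsAffineOpen U₁ ∧ (datumOf c U₀ U₁ x y h e he heU).IsGood := by
  obtain ⟨U₀, U₁, x, y, h, hA0, hA1, heU, hf0, hf1, hi0, hi1⟩ := hB k c e he
  exact ⟨U₀, U₁, x, y, h, heU, hA0, hA1,
    datumOf_isGood c U₀ U₁ x y h e he heU hA0 hA1 hf0 hf1 hi0 hi1⟩

end Fermat.Agent.S25.Curve.H7
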