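/-
helper66, S25 package CURVE, second interface file: the sub-leaves of the assembly of
`Stmt_BCOVER` (see `Defs.lean`).  `C` is a proper smooth integral curve over a field `k`,
`f ∈ K(C)`, `(U₀, x)` = domain of definition of `f` with its section, `(U₁, y)` the same for `1/f`
(both from `Stmt_DOM`).
-/
import Mathlib
import Fermat.Agent.S25.Curve.Defs

set_option autoImplicit false

universe u

open CategoryTheory CategoryTheory.Limits AlgebraicGeometry Polynomial

namespace Fermat.Agent.S25.Curve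

/-- `(U, s)` is the domain of definition of the rational function `f` with its section
(the output of `Stmt_DOM`). -/
structure IsDomOf {X : Scheme.{u}} [IsIntegral X] (f : X.functionField) (U : X.Opens)
    [Nonempty U] (s : Γ(X, U)) : Prop where
  germ_eq : X.germToFunctionField U s = f
  mem_iff : ∀ p : X, p ∈ U ↔ f ∈ Set.range (algebraMap (X.presheaf.stalk p) X.functionField)

/-- **CURVE-TWOCHART**: the domains of `f` and of `1/f` are two-chart data
(cover: the local rings of the curve are valuation rings of `K(C)`). -/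
def Stmt_TWOCHART : Prop :=
  ∀ (k : Type u) [Field k] {C : Scheme.{u}} (c : C ⟶ Spec (CommRingCat.of k))
    [IsProper c] [SmoothOfRelativeDimension 1 c] [IsIntegral C]
    (f : C.functionField), f ≠ 0 →
    ∀ (U₀ U₁ : C.Opens) [Nonempty U₀] [Nonempty U₁] (x : Γ(C, U₀)) (y : Γ(C, U₁)),
      IsDomOf f U₀ x → IsDomOf f⁻¹ U₁ y → IsTwoChart U₀ U₁ x y

/-- **CURVE-TRANS**: a rational function with a pole is transcendental over `k`,
and so is its inverse. -/
def Stmt_TRANS : Prop :=
  ∀ (k : Type u) [Field k] {C : Scheme.{u}} (c : C ⟶ Spec (CommRingCat.of k))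
    [IsProper c] [SmoothOfRelativeDimension 1 c] [IsIntegral C]
    (f : C.functionField), f ≠ 0 →
    ∀ (U₀ U₁ : C.Opens) [Nonempty U₀] [Nonempty U₁] (x : Γ(C, U₀)) (y : Γ(C, U₁)),
      IsDomOf f U₀ x → IsDomOf f⁻¹ U₁ y → U₀ ≠ ⊤ →
      Function.Injective (polyTo c U₀ x) ∧ Function.Injective (polyTo c U₁ y)

/-- **CURVE-FIBRE**: the chart map of a transcendental section has finite fibres
(this is the hypothesis of `Stmt_FINCHART`). -/
def Stmt_FIBRE : Prop :=
  ∀ (k : Type u) [Field k] {C : Scheme.{u}} (c : C ⟶ Spec (CommRingCat.of k))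
    [IsProper c] [SmoothOfRelativeDimension 1 c] [IsIntegral C]
    (U : C.Opens) (x : Γ(C, U)), Function.Injective (polyTo c U x) →
    ∀ P : Ideal k[X], P.IsPrime →
      {p : C | ∃ hp : p ∈ U,
        Ideal.comap ((C.presheaf.germ U p hp).hom.comp (polyTo c U x))
          (IsLocalRing.maximalIdeal (C.presheaf.stalk p)) = P}.Finite

/-- **CURVE-POLE**: the local ring at a rational point is a discrete valuation ring
(not a field): it has a uniformiser. -/
def Stmt_POLE : Prop :=
  ∀ (k : Type u) [Field k] {C : Scheme.{u}} (c : C ⟶ Spec (CommRingCat.of k))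
    [IsProper c] [SmoothOfRelativeDimension 1 c] [IsIntegral C]
    (e : Spec (CommRingCat.of k) ⟶ C), e ≫ c = 𝟙 _ →
    ∀ z : Spec (CommRingCat.of k), ∃ s : C.presheaf.stalk (e z), s ≠ 0 ∧
      IsLocalRing.maximalIdeal (C.presheaf.stalk (e z)) = Ideal.span {s}

/-- **CURVE-BCOVER-T** (assembly, parametrised by the function): for `t ≠ 0` in the maximal
ideal of the local ring at the rational point, the domains of `1/t` and `t` give the two-chart
cover, with `y = t`. -/
def Stmt_BCOVER_T : Prop :=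
  ∀ (k : Type u) [Field k] [IsAlgClosed k] {C : Scheme.{u}} (c : C ⟶ Spec (CommRingCat.of k))
    [IsProper c] [SmoothOfRelativeDimension 1 c] [IsIntegral C]
    (e : Spec (CommRingCat.of k) ⟶ C), e ≫ c = 𝟙 _ →
    ∀ (z : Spec (CommRingCat.of k)) (s : C.presheaf.stalk (e z)), s ≠ 0 →
      s ∈ IsLocalRing.maximalIdeal (C.presheaf.stalk (e z)) →
    ∃ (U₀ U₁ : C.Opens) (x : Γ(C, U₀)) (y : Γ(C, U₁)) (h₁ : e z ∈ U₁),
      IsTwoChart U₀ U₁ x y ∧ IsAffineOpen U₀ ∧ IsAffineOpen U₁ ∧
      e z ∉ U₀ ∧ C.presheaf.germ U₁ (e z) h₁ y = s ∧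
      (polyTo c U₀ x).Finite ∧ (polyTo c U₁ y).Finite ∧
      Function.Injective (polyTo c U₀ x) ∧ Function.Injective (polyTo c U₁ y)

end Fermat.Agent.S25.Curve
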