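import Mathlib
import Fermat.Agent.S25.Curve.Defs
import Fermat.Agent.S26.G.H8_Dim
import Fermat.Agent.S26.T.H69_FinB

/-!
# S25, package CURVE, leaf DIM1 (helper51)

`C` integral, smooth of relative dimension one over a field `k`, locally of finite type and
quasi-compact.  Then `C` is a curve: every point other than the generic point has codimension
one and is closed, and a proper closed subset of `C` is finite.

Route: `trdeg_k k(C) = 1` (helper8, `S26.G.H8`), so a Noether normalisation of `Γ(C, U)`
(`U` affine open) has one variable, hence `Γ(C, U)` is integral over `k[X]` and every nonzero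
prime of `Γ(C, U)` is maximal.  Closedness in `C`: `C` is a Jacobson space.  Finiteness:
`S26.T.H69.stmt_FINB`.

* `krullDimLE_one_of_integral` : a domain integral over `MvPolynomial (Fin 1) k`;
* `krullDimLE_one_sections` : `Ring.KrullDimLE 1 Γ(C, U)`;
* `primeIdealOf_ne_bot`, `coheight_eq_one`, `isClosed_singleton`, `finite_of_isClosed`;
* `stmt_DIM1 : Stmt_DIM1`.
-/

set_option autoImplicit false
set_option linter.style.haveILetI false
set_option linter.unusedSectionVars false

open CategoryTheory CategoryTheory.Limits AlgebraicGeometry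

universe u

namespace Fermat.Agent.S25.Curve.H51

open Fermat.Agent.S26.G Fermat.Agent.S26

section Alg

/-- A domain integral over the polynomial ring in one variable over a field has Krull dimension
at most one. -/
theorem krullDimLE_one_of_integral (k : Type u) [Field k] (B : Type u) [CommRing B] [IsDomain B]
    [Algebra k B] (φ : MvPolynomial (Fin 1) k →ₐ[k] B) (hint : φ.toRingHom.IsIntegral) :
    Ring.KrullDimLE 1 B := by
  letI : Algebra (MvPolynomial (Fin 1) k) B := φ.toRingHom.toAlgebra
  haveI : Algebra.IsIntegral (MvPolynomial (Fin 1) k) B := ⟨hint⟩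
  haveI hR : Ring.KrullDimLE 1 (MvPolynomial (Fin 1) k) := by
    rw [Ring.krullDimLE_iff, MvPolynomial.ringKrullDim_of_isNoetherianRing,
      ringKrullDim_eq_zero_of_field]
    simp
  refine Ring.krullDimLE_one_iff_of_noZeroDivisors.mpr fun I hI hIp => ?_
  haveI := hIp
  have hc : I.comap (algebraMap (MvPolynomial (Fin 1) k) B) ≠ ⊥ :=
    fun h => hI (Ideal.eq_bot_of_comap_eq_bot h)
  haveI : (I.comap (algebraMap (MvPolynomial (Fin 1) k) B)).IsPrime := Ideal.comap_isPrime _ _
  haveI : (I.comap (algebraMap (MvPolynomial (Fin 1) k) B)).IsMaximal :=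
    Ideal.IsPrime.isMaximal_of_ne_bot ‹_› hc
  exact Ideal.isMaximal_of_isIntegral_of_isMaximal_comap I ‹_›

end Alg

section Scheme

variable {k : Type u} [Field k] {C : Scheme.{u}} (c : C ⟶ Spec (CommRingCat.of k))

/-- The ring of sections over an affine open is a `k`-algebra of finite type. -/
theorem finiteType_constSec' [LocallyOfFiniteType c] (U : C.Opens) (hU : IsAffineOpen U) :
    (constSec c U).FiniteType := by
  have e : U ≤ c ⁻¹ᵁ (⊤ : (Spec (CommRingCat.of k)).Opens) := le_top
  have h1 : (c.appLE ⊤ U e).hom.FiniteType :=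
    HasRingHomProperty.appLE (P := @LocallyOfFiniteType) c inferInstance
      ⟨⊤, isAffineOpen_top _⟩ ⟨U, hU⟩ e
  have h2 : constSec c U = (c.appLE ⊤ U e).hom.comp (H8.baseSec k ⊤) := by
    ext x
    exact (H8.appLE_baseSec c ⊤ U e x).symm
  rw [h2]
  obtain ⟨x⟩ : Nonempty (Spec (CommRingCat.of k)) := inferInstance
  exact h1.comp (RingHom.FiniteType.of_surjective _ (H8.baseSec_bijective ⊤ x trivial).2)

/-- The sections over an affine open of a smooth integral curve: Krull dimension at most one. -/
theorem krullDimLE_one_sections [LocallyOfFiniteType c] [SmoothOfRelativeDimension 1 c]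
    [IsIntegral C] (U : C.Opens) [Nonempty U] (hU : IsAffineOpen U) :
    Ring.KrullDimLE 1 Γ(C, U) := by
  letI : Algebra k Γ(C, U) := (constSec c U).toAlgebra
  letI : Algebra k C.functionField := (constHom c).toAlgebra
  haveI : Algebra.FiniteType k Γ(C, U) := finiteType_constSec' c U hU
  obtain ⟨s, φ, hinj, hint⟩ := exists_integral_inj_algHom_of_fg k Γ(C, U)
  obtain ⟨y, hy⟩ := H8.exists_isTranscendenceBasis c 1
  have h2 := H8.isTranscendenceBasis_of_nn c U hU s φ hinj hint
  have h := h2.lift_cardinalMk_eq hy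
  have hs : s = 1 := by simpa using h
  subst hs
  exact krullDimLE_one_of_integral k Γ(C, U) φ hint

variable {c}

/-- The prime ideal of a point other than the generic point is not zero. -/
theorem primeIdealOf_ne_bot [IsIntegral C] {U : C.Opens} (hU : IsAffineOpen U) {p : C}
    (hpU : p ∈ U) (hp : p ≠ genericPoint C) : (hU.primeIdealOf ⟨p, hpU⟩).asIdeal ≠ ⊥ := by
  haveI : Nonempty U := ⟨⟨p, hpU⟩⟩
  intro h
  apply hp
  have h1 : hU.primeIdealOf ⟨p, hpU⟩ = genericPoint (Spec Γ(C, U)) := by
    rw [genericPoint_eq_bot_of_affine]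
    exact PrimeSpectrum.ext h
  rw [← hU.primeIdealOf_genericPoint] at h1
  have h2 := congrArg hU.fromSpec h1
  rw [hU.fromSpec_primeIdealOf, hU.fromSpec_primeIdealOf] at h2
  exact h2

variable (c)

/-- **DIM1 (a)**: a point other than the generic point has codimension one. -/
theorem coheight_eq_one [LocallyOfFiniteType c] [SmoothOfRelativeDimension 1 c] [IsIntegral C]
    (p : C) (hp : p ≠ genericPoint C) : Order.coheight p = 1 := by
  obtain ⟨_, ⟨U, hU, rfl⟩, hpU, -⟩ :=
    C.isBasis_affineOpens.exists_subset_of_mem_open (Set.mem_univ p) isOpen_univ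
  haveI : Nonempty U := ⟨⟨p, hpU⟩⟩
  haveI hdim := krullDimLE_one_sections c U hU
  have hP := primeIdealOf_ne_bot hU hpU hp
  letI : Algebra Γ(C, U) (C.presheaf.stalk ((⟨p, hpU⟩ : U) : C)) :=
    TopCat.Presheaf.algebra_section_stalk C.presheaf ⟨p, hpU⟩
  haveI := hU.isLocalization_stalk ⟨p, hpU⟩
  have h1 : ringKrullDim (C.presheaf.stalk ((⟨p, hpU⟩ : U) : C))
      = ((hU.primeIdealOf ⟨p, hpU⟩).asIdeal).height :=
    IsLocalization.AtPrime.ringKrullDim_eq_height (hU.primeIdealOf ⟨p, hpU⟩).asIdeal
      (C.presheaf.stalk ((⟨p, hpU⟩ : U) : C))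
  have h2 : ringKrullDim (C.presheaf.stalk ((⟨p, hpU⟩ : U) : C)) = Order.coheight p :=
    ringKrullDim_stalk_eq_coheight p
  have h3 : ((hU.primeIdealOf ⟨p, hpU⟩).asIdeal).height = 1 := by
    refine le_antisymm ?_ ?_
    · have h4 : (((hU.primeIdealOf ⟨p, hpU⟩).asIdeal).height : WithBot ℕ∞) ≤ 1 :=
        (Ideal.height_le_ringKrullDim_of_ne_top Ideal.IsPrime.ne_top').trans
          (by exact_mod_cast Ring.krullDimLE_iff.mp hdim)
      exact_mod_cast h4
    · have h5 := Ideal.height_add_one_le_of_lt_of_isPrime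
        (I := (⊥ : Ideal Γ(C, U))) (J := (hU.primeIdealOf ⟨p, hpU⟩).asIdeal)
        (bot_lt_iff_ne_bot.mpr hP)
      simpa using h5
  rw [h1, h3] at h2
  exact_mod_cast h2.symm

/-- **DIM1 (b)**: a point other than the generic point is closed. -/
theorem isClosed_singleton [LocallyOfFiniteType c] [SmoothOfRelativeDimension 1 c] [IsIntegral C]
    (p : C) (hp : p ≠ genericPoint C) : IsClosed ({p} : Set C) := by
  obtain ⟨_, ⟨U, hU, rfl⟩, hpU, -⟩ :=
    C.isBasis_affineOpens.exists_subset_of_mem_open (Set.mem_univ p) isOpen_univ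
  haveI : Nonempty U := ⟨⟨p, hpU⟩⟩
  haveI hdim := krullDimLE_one_sections c U hU
  have hP := primeIdealOf_ne_bot hU hpU hp
  haveI : JacobsonSpace C := LocallyOfFiniteType.jacobsonSpace c
  have hmax : (hU.primeIdealOf ⟨p, hpU⟩).asIdeal.IsMaximal :=
    Ideal.IsPrime.isMaximal_of_ne_bot inferInstance hP
  have hcl : hU.primeIdealOf ⟨p, hpU⟩ ∈ closedPoints (Spec Γ(C, U)) :=
    (PrimeSpectrum.isClosed_singleton_iff_isMaximal _).mpr hmax
  have hemb : Topology.IsOpenEmbedding (hU.fromSpec : Spec Γ(C, U) → C) :=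
    hU.fromSpec.isOpenEmbedding
  rw [← hemb.preimage_closedPoints] at hcl
  have h3 : hU.fromSpec (hU.primeIdealOf ⟨p, hpU⟩) ∈ closedPoints C := hcl
  rw [hU.fromSpec_primeIdealOf] at h3
  exact h3

/-- **DIM1 (c)**: a proper closed subset is finite. -/
theorem finite_of_isClosed [LocallyOfFiniteType c] [QuasiCompact c]
    [SmoothOfRelativeDimension 1 c] [IsIntegral C]
    (Z : Set C) (hZ : IsClosed Z) (hne : Z ≠ Set.univ) : Z.Finite := by
  haveI : IsLocallyNoetherian C := LocallyOfFiniteType.isLocallyNoetherian c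
  haveI : CompactSpace C := QuasiCompact.compactSpace_of_compactSpace c
  have hU : Nonempty (⟨Zᶜ, hZ.isOpen_compl⟩ : C.Opens) := by
    by_contra h
    apply hne
    rw [not_nonempty_iff] at h
    ext z
    simp only [Set.mem_univ, iff_true]
    by_contra hz
    exact h.false ⟨z, hz⟩
  have hfin := T.H69.stmt_FINB (X := C) ⟨Zᶜ, hZ.isOpen_compl⟩ hU
  refine hfin.subset fun z hz => ⟨coheight_eq_one c z ?_, fun h => h hz⟩
  rintro rfl
  apply hne
  have hg : closure ({genericPoint C} : Set C) = Set.univ := genericPoint_spec C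
  rw [← Set.univ_subset_iff, ← hg]
  exact hZ.closure_subset_iff.mpr (Set.singleton_subset_iff.mpr hz)

end Scheme

/-- **CURVE-DIM1**. -/
theorem stmt_DIM1 : Stmt_DIM1.{u} := by
  intro k _ C c _ _ _ _
  exact ⟨fun p hp => coheight_eq_one c p hp, fun p hp => isClosed_singleton c p hp,
    fun Z hZ hne => finite_of_isClosed c Z hZ hne⟩

end Fermat.Agent.S25.Curve.H51
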