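/-
helper64, S25 package CURVE, algebraic core of CURVE-BCOVER-SEP ("x is a separating variable").
Mathlib only.

Situation: a curve with two charts `B₀ = Γ(U₀)`, `B₁ = Γ(U₁)` inside the function field `K`,
`x ∈ B₀`, `y ∈ B₁`, `x y = 1`, and a `k`-rational point `e` of `U₁` (a prime `m` of `B₁` with residue
field `k`) at which `y` is a uniformizer.  Then `k[X] → B₀[1/h]`, `X ↦ x`, is etale for some
`h ≠ 0`.

Steps:
* `isUnramifiedAt_of_uniformizer`: `k[Y] → B₁` is unramified at `m` (the fibre of the module of
  differentials at `m` vanishes; Nakayama via the support);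
* `formallyUnramified_fractionField_of_isUnramifiedAt`: the unramified locus is open, hence
  contains the generic point: `K` is formally unramified over `k[Y]`;
* `formallyUnramified_eval₂_inv`: hence also over `k[X]`, `X ↦ x = 1/y` (both maps factor through
  the Laurent polynomial ring);
* `exists_away_formallyUnramified`: hence `B₀[1/h]` is formally unramified over `k[X]` for some
  `h ≠ 0`;
* flat (torsion-free over a principal ideal domain) + finitely presented + formally unramified
  is etale.
-/
import Mathlib

set_option autoImplicit false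

universe u

open Polynomial TensorProduct

namespace Fermat.Agent.S25.Curve.H64

section LemmaB

variable {k B : Type u} [Field k] [CommRing B]

/-- **Unramified at a point with a uniformizer.**  Let `B` be a `k[X]`-algebra of finite type via
`X ↦ y`, and `m` a prime of `B` with residue field `k`, containing `y`, such that `y` generates `m`
locally at `m`.  Then `B` is unramified over `k[X]` at `m`. -/
theorem isUnramifiedAt_of_uniformizer (κ : k →+* B) (y : B)
    (hft : (eval₂RingHom κ y).FiniteType)
    (m : Ideal B) [m.IsPrime] (hym : y ∈ m)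
    (hunif : ∀ z ∈ m, ∃ a s : B, s ∉ m ∧ s * z = a * y)
    (hres : ∀ b : B, ∃ c : k, b - κ c ∈ m) :
    letI : Algebra k[X] B := (eval₂RingHom κ y).toAlgebra
    Algebra.IsUnramifiedAt k[X] m := by
  letI : Algebra k[X] B := (eval₂RingHom κ y).toAlgebra
  haveI : Algebra.FiniteType k[X] B := hft
  have hX : algebraMap k[X] B X = y := by
    change eval₂RingHom κ y X = y
    simp
  have hC : ∀ c : k, algebraMap k[X] B (C c) = κ c := by
    intro c
    change eval₂RingHom κ y (C c) = κ c
    simp
  -- the universal derivation
  have hDy : KaehlerDifferential.D k[X] B y = 0 := by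
    rw [← hX]; exact (KaehlerDifferential.D k[X] B).map_algebraMap X
  have hDc : ∀ c : k, KaehlerDifferential.D k[X] B (κ c) = 0 := by
    intro c
    rw [← hC]; exact (KaehlerDifferential.D k[X] B).map_algebraMap (C c)
  have hz : ∀ z ∈ m, (1 : m.ResidueField) ⊗ₜ[B] KaehlerDifferential.D k[X] B z = 0 := by
    intro z hzm
    obtain ⟨a, s, hs, hsz⟩ := hunif z hzm
    have h1 := congrArg (KaehlerDifferential.D k[X] B) hsz
    rw [Derivation.leibniz, Derivation.leibniz, hDy, smul_zero, zero_add] at h1
    -- s • D z + z • D s = y • D a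
    have h2 : (1 : m.ResidueField) ⊗ₜ[B] (s • KaehlerDifferential.D k[X] B z) = 0 := by
      have h3 : s • KaehlerDifferential.D k[X] B z =
          y • KaehlerDifferential.D k[X] B a - z • KaehlerDifferential.D k[X] B s := by
        rw [← h1]; abel
      rw [h3, TensorProduct.tmul_sub, TensorProduct.tmul_smul, TensorProduct.tmul_smul,
        TensorProduct.smul_tmul', TensorProduct.smul_tmul', Algebra.smul_def, Algebra.smul_def,
        (Ideal.algebraMap_residueField_eq_zero).mpr hym,
        (Ideal.algebraMap_residueField_eq_zero).mpr hzm]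
      simp
    rw [TensorProduct.tmul_smul, TensorProduct.smul_tmul', Algebra.smul_def, mul_one] at h2
    have hs0 : algebraMap B m.ResidueField s ≠ 0 := by
      rw [Ne, Ideal.algebraMap_residueField_eq_zero]; exact hs
    have h4 : (algebraMap B m.ResidueField s)⁻¹ •
        ((algebraMap B m.ResidueField s) ⊗ₜ[B] KaehlerDifferential.D k[X] B z) = 0 := by
      rw [h2, smul_zero]
    rwa [TensorProduct.smul_tmul', smul_eq_mul, inv_mul_cancel₀ hs0] at h4
  have hb : ∀ b : B, (1 : m.ResidueField) ⊗ₜ[B] KaehlerDifferential.D k[X] B b = 0 := by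
    intro b
    obtain ⟨c, hc⟩ := hres b
    have : b = (b - κ c) + κ c := by ring
    rw [this, map_add, hDc, add_zero]
    exact hz _ hc
  have hsub : Subsingleton (m.ResidueField ⊗[B] Ω[B⁄k[X]]) := by
    refine ⟨fun u v => ?_⟩
    suffices h : ∀ w : m.ResidueField ⊗[B] Ω[B⁄k[X]], w = 0 by rw [h u, h v]
    intro w
    induction w using TensorProduct.induction_on with
    | zero => rfl
    | add u v hu hv => rw [hu, hv, add_zero]
    | tmul a ω =>
      have hω : ω ∈ Submodule.span B (Set.range (KaehlerDifferential.D k[X] B)) := by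
        rw [KaehlerDifferential.span_range_derivation]; trivial
      induction hω using Submodule.span_induction with
      | mem ω h =>
        obtain ⟨b, rfl⟩ := h
        have : a ⊗ₜ[B] KaehlerDifferential.D k[X] B b =
            a • ((1 : m.ResidueField) ⊗ₜ[B] KaehlerDifferential.D k[X] B b) := by
          rw [TensorProduct.smul_tmul', smul_eq_mul, mul_one]
        rw [this, hb, smul_zero]
      | zero => simp
      | add ω₁ ω₂ _ _ h₁ h₂ => rw [TensorProduct.tmul_add, h₁, h₂, add_zero]
      | smul b ω _ h =>
        rw [TensorProduct.tmul_smul, h, smul_zero]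
  have hm : (⟨m, inferInstance⟩ : PrimeSpectrum B) ∉ Module.support B Ω[B⁄k[X]] := by
    rw [Module.mem_support_iff_nontrivial_residueField_tensorProduct]
    exact not_nontrivial _
  have hmem : (⟨m, inferInstance⟩ : PrimeSpectrum B) ∈ Algebra.unramifiedLocus k[X] B := by
    rw [Algebra.unramifiedLocus_eq_compl_support]
    exact hm
  exact hmem

end LemmaB

section LemmaA

variable {R B K : Type u} [CommRing R] [CommRing B] [IsDomain B] [Field K] [Algebra B K]
  [IsFractionRing B K]

/-- The fraction field is the localisation at the zero ideal. -/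
theorem isLocalization_bot_primeCompl :
    IsLocalization (⊥ : Ideal B).primeCompl K := by
  rw [Ideal.primeCompl_bot]
  infer_instance

/-- **Generic point from a point**: if a domain `B` of finite type over `R` is unramified at
some prime, then its fraction field is formally unramified over `R`. -/
theorem formallyUnramified_fractionField_of_isUnramifiedAt
    (φ : R →+* B) (hft : φ.FiniteType) (m : Ideal B) [m.IsPrime]
    (hm : letI : Algebra R B := φ.toAlgebra; Algebra.IsUnramifiedAt R m) :
    ((algebraMap B K).comp φ).FormallyUnramified := by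
  letI : Algebra R B := φ.toAlgebra
  haveI : Algebra.FiniteType R B := hft
  have hle : (⟨⊥, Ideal.isPrime_bot⟩ : PrimeSpectrum B) ≤ ⟨m, inferInstance⟩ := by
    change (⊥ : Ideal B) ≤ m
    exact bot_le
  have hs := (PrimeSpectrum.le_iff_specializes _ _).mp hle
  have hmem : (⟨⊥, Ideal.isPrime_bot⟩ : PrimeSpectrum B) ∈ Algebra.unramifiedLocus R B :=
    hs.mem_open Algebra.isOpen_unramifiedLocus hm
  have hbot : Algebra.FormallyUnramified R (Localization.AtPrime (⊥ : Ideal B)) := hmem
  letI : Algebra R K := ((algebraMap B K).comp φ).toAlgebra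
  haveI : IsScalarTower R B K := IsScalarTower.of_algebraMap_eq (fun _ => rfl)
  haveI : IsLocalization (⊥ : Ideal B).primeCompl K := isLocalization_bot_primeCompl
  let e : Localization.AtPrime (⊥ : Ideal B) ≃ₐ[B] K :=
    IsLocalization.algEquiv (⊥ : Ideal B).primeCompl _ _
  have hK : Algebra.FormallyUnramified R K :=
    Algebra.FormallyUnramified.of_equiv (e.restrictScalars R)
  exact hK

/-- **Open from the generic point**: if the fraction field of a domain `B` of finite type over
`R` is formally unramified over `R`, then so is `B[1/h]` for some `h ≠ 0`. -/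
theorem exists_away_formallyUnramified
    (φ : R →+* B) (hft : φ.FiniteType)
    (hK : ((algebraMap B K).comp φ).FormallyUnramified) :
    ∃ h : B, h ≠ 0 ∧ ∀ (S : Type u) [CommRing S] [Algebra B S] [IsLocalization.Away h S],
      ((algebraMap B S).comp φ).FormallyUnramified := by
  letI : Algebra R B := φ.toAlgebra
  haveI : Algebra.FiniteType R B := hft
  letI : Algebra R K := ((algebraMap B K).comp φ).toAlgebra
  haveI : IsScalarTower R B K := IsScalarTower.of_algebraMap_eq (fun _ => rfl)
  haveI : IsLocalization (⊥ : Ideal B).primeCompl K := isLocalization_bot_primeCompl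
  let e : Localization.AtPrime (⊥ : Ideal B) ≃ₐ[B] K :=
    IsLocalization.algEquiv (⊥ : Ideal B).primeCompl _ _
  haveI hK' : Algebra.FormallyUnramified R K := hK
  haveI hbot : Algebra.IsUnramifiedAt R (⊥ : Ideal B) :=
    Algebra.FormallyUnramified.of_equiv (e.symm.restrictScalars R)
  obtain ⟨f, hf, hfu⟩ := Algebra.exists_formallyUnramified_of_isUnramifiedAt (R := R)
    (⊥ : Ideal B)
  refine ⟨f, fun h0 => hf (by rw [h0]; exact Ideal.zero_mem _), ?_⟩
  intro S _ _ _
  letI : Algebra R S := ((algebraMap B S).comp φ).toAlgebra
  haveI : IsScalarTower R B S := IsScalarTower.of_algebraMap_eq (fun _ => rfl)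
  let e' : Localization.Away f ≃ₐ[B] S := IsLocalization.algEquiv (Submonoid.powers f) _ _
  have hS : Algebra.FormallyUnramified R S :=
    Algebra.FormallyUnramified.of_equiv (e'.restrictScalars R)
  exact hS

end LemmaA

section LemmaC

variable {k K : Type u} [Field k] [Field K]

/-- **Inversion of the coordinate**: if `K` is formally unramified over `k[X]` via `X ↦ y`,
then also via `X ↦ x = 1/y`. -/
theorem formallyUnramified_eval₂_inv (κ : k →+* K) (x y : K) (hxy : x * y = 1)
    (hy : (eval₂RingHom κ y).FormallyUnramified) :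
    (eval₂RingHom κ x).FormallyUnramified := by
  -- the Laurent polynomial ring
  let T := Localization.Away (X : k[X])
  let ι : k[X] →+* T := algebraMap k[X] T
  have hyu : IsUnit (eval₂RingHom κ y X) := by
    rw [coe_eval₂RingHom, eval₂_X]
    exact IsUnit.of_mul_eq_one x (by rw [mul_comm]; exact hxy)
  let ψ : T →+* K := IsLocalization.Away.lift (X : k[X]) hyu
  have hψι : ψ.comp ι = eval₂RingHom κ y := IsLocalization.Away.lift_comp _ hyu
  have hψ : ψ.FormallyUnramified := by
    apply RingHom.FormallyUnramified.of_comp (f := ι)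
    rw [hψι]; exact hy
  let inv : T := IsLocalization.Away.invSelf (X : k[X])
  have hinv : ι X * inv = 1 := IsLocalization.Away.mul_invSelf (X : k[X])
  let σ : k[X] →+* T := eval₂RingHom (ι.comp C) inv
  have hσX : σ X = inv := by simp [σ]
  have hσC : ∀ c : k, σ (C c) = ι (C c) := by intro c; simp [σ]
  have hσu : IsUnit (σ X) := by
    rw [hσX]; exact IsUnit.of_mul_eq_one (ι X) (by rw [mul_comm]; exact hinv)
  let τ : T →+* T := IsLocalization.Away.lift (X : k[X]) hσu
  have hτι : τ.comp ι = σ := IsLocalization.Away.lift_comp _ hσu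
  have hτιX : τ (ι X) = inv := by
    have := congrArg (fun f : k[X] →+* T => f X) hτι
    simpa [hσX] using this
  have hτinv : τ inv = ι X := by
    have h1 : τ (ι X) * τ inv = 1 := by rw [← map_mul, hinv, map_one]
    rw [hτιX] at h1
    -- inv * τ inv = 1 and ι X * inv = 1
    calc τ inv = (ι X * inv) * τ inv := by rw [hinv, one_mul]
      _ = ι X * (inv * τ inv) := by ring
      _ = ι X := by rw [h1, mul_one]
  have hττ : (τ.comp τ).comp ι = ι := by
    apply Polynomial.ringHom_ext
    · intro c
      have h1 : τ (ι (C c)) = ι (C c) := by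
        have := congrArg (fun f : k[X] →+* T => f (C c)) hτι
        simpa [hσC] using this
      simp only [RingHom.comp_apply, h1]
    · simp only [RingHom.comp_apply, hτιX, hτinv]
  have hττid : τ.comp τ = RingHom.id T := by
    apply IsLocalization.ringHom_ext (Submonoid.powers (X : k[X]))
    rw [hττ, RingHom.id_comp]
  have hτsurj : Function.Surjective τ := by
    intro t
    exact ⟨τ t, by
      have := congrArg (fun f : T →+* T => f t) hττid
      simpa using this⟩
  have hτ : τ.FormallyUnramified := RingHom.FormallyUnramified.of_surjective hτsurj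
  have hι : ι.FormallyUnramified := by
    rw [RingHom.formallyUnramified_algebraMap]
    exact Algebra.FormallyUnramified.of_isLocalization (Submonoid.powers (X : k[X]))
  have hσ : σ.FormallyUnramified := by
    rw [← hτι]; exact hι.comp hτ
  have hx : eval₂RingHom κ x = ψ.comp σ := by
    apply Polynomial.ringHom_ext
    · intro c
      have h1 : ψ (ι (C c)) = κ c := by
        have := congrArg (fun f : k[X] →+* K => f (C c)) hψι
        simpa using this
      simp only [RingHom.comp_apply, hσC, h1, coe_eval₂RingHom, eval₂_C]
    · have h1 : ψ (ι X) = y := by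
        have := congrArg (fun f : k[X] →+* K => f X) hψι
        simpa using this
      have h2 : ψ (ι X) * ψ inv = 1 := by rw [← map_mul, hinv, map_one]
      rw [h1] at h2
      have h3 : ψ inv = x := by
        calc ψ inv = (x * y) * ψ inv := by rw [hxy, one_mul]
          _ = x * (y * ψ inv) := by ring
          _ = x := by rw [h2, mul_one]
      simp only [RingHom.comp_apply, hσX, h3, coe_eval₂RingHom, eval₂_X]
  rw [hx]
  exact hσ.comp hψ

end LemmaC

section Main

variable {k B₀ B₁ K : Type u} [Field k] [CommRing B₀] [CommRing B₁] [IsDomain B₀] [IsDomain B₁]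
  [Field K] [Algebra B₀ K] [Algebra B₁ K] [IsFractionRing B₀ K] [IsFractionRing B₁ K]

/-- Composition of `eval₂RingHom` with a ring homomorphism. -/
theorem comp_eval₂RingHom {A B : Type u} [CommRing A] [CommRing B] (f : A →+* B) (κ : k →+* A)
    (a : A) : f.comp (eval₂RingHom κ a) = eval₂RingHom (f.comp κ) (f a) := by
  apply Polynomial.ringHom_ext
  · intro c; simp
  · simp

/-- A domain containing `k[X]` is flat over it. -/
theorem flat_of_injective {S : Type u} [CommRing S] [IsDomain S] (f : k[X] →+* S)
    (hf : Function.Injective f) : f.Flat := by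
  letI : Algebra k[X] S := f.toAlgebra
  have htf : Module.IsTorsionFree k[X] S := by
    apply Module.IsTorsionFree.of_smul_eq_zero
    intro r s hrs
    rw [Algebra.smul_def, mul_eq_zero] at hrs
    rcases hrs with h | h
    · left
      apply hf
      rw [map_zero]
      exact h
    · right; exact h
  change Module.Flat k[X] S
  infer_instance

/-- **Algebraic core of CURVE-BCOVER-SEP.** -/
theorem sep_core (κ₀ : k →+* B₀) (κ₁ : k →+* B₁)
    (hκ : (algebraMap B₀ K).comp κ₀ = (algebraMap B₁ K).comp κ₁)
    (x : B₀) (y : B₁) (hxy : algebraMap B₀ K x * algebraMap B₁ K y = 1)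
    (hft₀ : (eval₂RingHom κ₀ x).FiniteType) (hft₁ : (eval₂RingHom κ₁ y).FiniteType)
    (hinj : Function.Injective (eval₂RingHom κ₀ x))
    (m : Ideal B₁) [m.IsPrime] (hym : y ∈ m)
    (hunif : ∀ z ∈ m, ∃ a s : B₁, s ∉ m ∧ s * z = a * y)
    (hres : ∀ b : B₁, ∃ c : k, b - κ₁ c ∈ m) :
    ∃ h : B₀, h ≠ 0 ∧ ∀ (S : Type u) [CommRing S] [Algebra B₀ S] [IsLocalization.Away h S],
      ((algebraMap B₀ S).comp (eval₂RingHom κ₀ x)).Etale := by
  have hB := isUnramifiedAt_of_uniformizer κ₁ y hft₁ m hym hunif hres
  have hK₁ : ((algebraMap B₁ K).comp (eval₂RingHom κ₁ y)).FormallyUnramified :=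
    formallyUnramified_fractionField_of_isUnramifiedAt (K := K) (eval₂RingHom κ₁ y) hft₁ m hB
  rw [comp_eval₂RingHom, ← hκ] at hK₁
  have hK₀ := formallyUnramified_eval₂_inv ((algebraMap B₀ K).comp κ₀) _ _ hxy hK₁
  rw [← comp_eval₂RingHom] at hK₀
  obtain ⟨h, h0, hh⟩ := exists_away_formallyUnramified (K := K) (eval₂RingHom κ₀ x) hft₀ hK₀
  refine ⟨h, h0, ?_⟩
  intro S _ _ _
  have hle : Submonoid.powers h ≤ nonZeroDivisors B₀ :=
    powers_le_nonZeroDivisors_of_noZeroDivisors h0
  haveI : IsDomain S := IsLocalization.isDomain_of_le_nonZeroDivisors S hle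
  have hinjS : Function.Injective (algebraMap B₀ S) := IsLocalization.injective S hle
  rw [RingHom.Etale.iff_flat_and_formallyUnramified]
  refine ⟨flat_of_injective _ ?_, hh S, ?_⟩
  · rw [RingHom.coe_comp]; exact hinjS.comp hinj
  · refine RingHom.FinitePresentation.comp ?_ (RingHom.FinitePresentation.of_finiteType.mp hft₀)
    rw [RingHom.finitePresentation_algebraMap]
    exact IsLocalization.Away.finitePresentation h

end Main

end Fermat.Agent.S25.Curve.H64
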