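/-
helper64, S25 package CURVE, leaf CURVE-BCOVER-SEP: the scheme side.

`Stmt_BCOVER_UNIF` = `Stmt_BCOVER` + "`y` is a uniformizer at the marked point `e`".
`stmt_BCOVER_SEP_of_UNIF : Stmt_BCOVER_UNIF → Stmt_BCOVER_SEP` (the algebra is `sep_core` of
`H64_SepAlg.lean`).
-/
import Mathlib
import Fermat.Agent.S25.Curve.Defs
import Fermat.Agent.S25.Curve.H64_SepAlg

set_option autoImplicit false

universe u

open CategoryTheory CategoryTheory.Limits AlgebraicGeometry Polynomial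

namespace Fermat.Agent.S25.Curve

/-- **CURVE-BCOVER-UNIF**: as `Stmt_BCOVER`, and moreover `y = 1/x` is a uniformizer at the
marked point. -/
def Stmt_BCOVER_UNIF : Prop :=
  ∀ (k : Type u) [Field k] [IsAlgClosed k] {C : Scheme.{u}} (c : C ⟶ Spec (CommRingCat.of k))
    [IsProper c] [SmoothOfRelativeDimension 1 c] [IsIntegral C]
    (e : Spec (CommRingCat.of k) ⟶ C), e ≫ c = 𝟙 _ →
    ∃ (U₀ U₁ : C.Opens) (x : Γ(C, U₀)) (y : Γ(C, U₁)),
      IsTwoChart U₀ U₁ x y ∧ IsAffineOpen U₀ ∧ IsAffineOpen U₁ ∧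
      (∀ z, e z ∈ U₁ ∧ e z ∉ U₀) ∧
      (polyTo c U₀ x).Finite ∧ (polyTo c U₁ y).Finite ∧
      Function.Injective (polyTo c U₀ x) ∧ Function.Injective (polyTo c U₁ y) ∧
      ∀ (z : Spec (CommRingCat.of k)) (hz : e z ∈ U₁),
        IsLocalRing.maximalIdeal (C.presheaf.stalk (e z)) =
          Ideal.span {(C.presheaf.germ U₁ (e z) hz).hom y}

namespace H64

section Glue

variable {k : Type u} [Field k] {C : Scheme.{u}} [IsIntegral C]

/-- The constants in the function field, computed from the chart `U` and from the whole curve. -/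
theorem germ_kSec (c : C ⟶ Spec (CommRingCat.of k)) (U : C.Opens) [Nonempty U] (a : k) :
    (C.germToFunctionField U).hom (kSec c U a) =
      (C.presheaf.germ ⊤ (genericPoint C) trivial).hom (kSec c ⊤ a) := by
  have h1 : c.appLE ⊤ U le_top ≫ C.germToFunctionField U =
      c.appLE ⊤ ⊤ le_top ≫ C.presheaf.germ ⊤ (genericPoint C) trivial := by
    have h2 : c.appLE ⊤ ⊤ le_top ≫ C.presheaf.map (homOfLE (le_top : U ≤ ⊤)).op =
        c.appLE ⊤ U le_top := Scheme.Hom.appLE_map _ _ _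
    rw [← h2, Category.assoc]
    congr 1
    exact (C.presheaf.germ_res (homOfLE (le_top : U ≤ ⊤)) _ _)
  have h3 := congrArg (fun f => f.hom ((Scheme.ΓSpecIso (CommRingCat.of k)).inv.hom a)) h1
  exact h3

/-- The constants in the function field do not depend on the chart. -/
theorem algebraMap_comp_kSec (c : C ⟶ Spec (CommRingCat.of k)) (U V : C.Opens) [Nonempty U]
    [Nonempty V] :
    (algebraMap Γ(C, U) C.functionField).comp (kSec c U) =
      (algebraMap Γ(C, V) C.functionField).comp (kSec c V) := by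
  ext a
  exact (germ_kSec c U a).trans (germ_kSec c V a).symm

/-- `x y = 1` in the function field. -/
theorem algebraMap_mul_eq_one {U₀ U₁ : C.Opens} [Nonempty U₀] [Nonempty U₁] (x : Γ(C, U₀))
    (y : Γ(C, U₁))
    (h : res (inf_le_left : U₀ ⊓ U₁ ≤ U₀) x * res (inf_le_right : U₀ ⊓ U₁ ≤ U₁) y = 1) :
    algebraMap Γ(C, U₀) C.functionField x * algebraMap Γ(C, U₁) C.functionField y = 1 := by
  have h0 : genericPoint C ∈ U₀ :=
    ((genericPoint_spec C).mem_open_set_iff U₀.isOpen).mpr (by simpa using ‹Nonempty U₀›)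
  have h1 : genericPoint C ∈ U₁ :=
    ((genericPoint_spec C).mem_open_set_iff U₁.isOpen).mpr (by simpa using ‹Nonempty U₁›)
  have h01 : genericPoint C ∈ U₀ ⊓ U₁ := ⟨h0, h1⟩
  have h2 := congrArg (C.presheaf.germ (U₀ ⊓ U₁) (genericPoint C) h01).hom h
  rw [map_mul, map_one] at h2
  have hx : (C.presheaf.germ (U₀ ⊓ U₁) (genericPoint C) h01).hom
      (res (inf_le_left : U₀ ⊓ U₁ ≤ U₀) x) = algebraMap Γ(C, U₀) C.functionField x :=
    C.presheaf.germ_res_apply (homOfLE (inf_le_left : U₀ ⊓ U₁ ≤ U₀)) _ h01 x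
  have hy : (C.presheaf.germ (U₀ ⊓ U₁) (genericPoint C) h01).hom
      (res (inf_le_right : U₀ ⊓ U₁ ≤ U₁) y) = algebraMap Γ(C, U₁) C.functionField y :=
    C.presheaf.germ_res_apply (homOfLE (inf_le_right : U₀ ⊓ U₁ ≤ U₁)) _ h01 y
  rw [hx, hy] at h2
  exact h2

/-- The value of a function at the `k`-point `e`. -/
noncomputable def evAt (e : Spec (CommRingCat.of k) ⟶ C) (U : C.Opens) (hU : ∀ z, e z ∈ U) :
    Γ(C, U) →+* k :=
  (Scheme.ΓSpecIso (CommRingCat.of k)).hom.hom.comp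
    (e.appLE U ⊤ (fun z _ => hU z)).hom

omit [IsIntegral C] in
theorem evAt_kSec (c : C ⟶ Spec (CommRingCat.of k)) (e : Spec (CommRingCat.of k) ⟶ C)
    (he : e ≫ c = 𝟙 _) (U : C.Opens) (hU : ∀ z, e z ∈ U) (a : k) :
    evAt e U hU (kSec c U a) = a := by
  have h1 : c.appLE ⊤ U le_top ≫ e.appLE U ⊤ (fun z _ => hU z) =
      (e ≫ c).appLE ⊤ ⊤ le_top := Scheme.Hom.appLE_comp_appLE _ _ _ _ _ _ _
  have h2 : (e ≫ c).appLE ⊤ ⊤ le_top = 𝟙 _ := by
    rw [he]; simp [Scheme.Hom.appLE]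
  rw [h2] at h1
  have h3 := congrArg (fun f => f.hom ((Scheme.ΓSpecIso (CommRingCat.of k)).inv.hom a)) h1
  simp only [CommRingCat.hom_comp, RingHom.comp_apply, CommRingCat.hom_id, RingHom.id_apply] at h3
  change (Scheme.ΓSpecIso (CommRingCat.of k)).hom.hom
    ((e.appLE U ⊤ _).hom ((c.appLE ⊤ U le_top).hom
      ((Scheme.ΓSpecIso (CommRingCat.of k)).inv.hom a))) = a
  rw [h3]
  exact congrArg (fun f => f.hom a) (Scheme.ΓSpecIso (CommRingCat.of k)).inv_hom_id

omit [IsIntegral C] in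
/-- A function vanishing at the `k`-point lies in the prime ideal of the point. -/
theorem mem_primeIdealOf_of_evAt_eq_zero (e : Spec (CommRingCat.of k) ⟶ C) (U : C.Opens)
    (hU : IsAffineOpen U) (he : ∀ z, e z ∈ U) (z : Spec (CommRingCat.of k)) (w : Γ(C, U))
    (hw : evAt e U he w = 0) : w ∈ (hU.primeIdealOf ⟨e z, he z⟩).asIdeal := by
  have h1 := IsAffineOpen.comap_primeIdealOf_appLE (f := e) (x := z) U hU ⊤
    (isAffineOpen_top _) (fun z _ => he z) (Set.mem_univ z)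
  have h2 : (e.appLE U ⊤ (fun z _ => he z)).hom w = 0 := by
    have h3 : (Scheme.ΓSpecIso (CommRingCat.of k)).hom.hom
        ((e.appLE U ⊤ (fun z _ => he z)).hom w) = 0 := hw
    have h4 := congrArg (Scheme.ΓSpecIso (CommRingCat.of k)).inv.hom h3
    rw [map_zero] at h4
    rw [← h4]
    exact (congrArg (fun f => f.hom ((e.appLE U ⊤ (fun z _ => he z)).hom w))
      (Scheme.ΓSpecIso (CommRingCat.of k)).hom_inv_id).symm
  rw [← h1, PrimeSpectrum.comap_asIdeal, Ideal.mem_comap, h2]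
  exact Ideal.zero_mem _

/-- **The scheme side of CURVE-BCOVER-SEP**: if `y` is a uniformizer at the marked point, then
`x = 1/y` is a separating variable on the chart `U₀`. -/
theorem sep_of_unif (c : C ⟶ Spec (CommRingCat.of k)) (e : Spec (CommRingCat.of k) ⟶ C)
    (he : e ≫ c = 𝟙 _) (U₀ U₁ : C.Opens) (x : Γ(C, U₀)) (y : Γ(C, U₁))
    (h2 : IsTwoChart U₀ U₁ x y) (hU₀ : IsAffineOpen U₀) (hU₁ : IsAffineOpen U₁)
    (he₁ : ∀ z, e z ∈ U₁)
    (hfin₀ : (polyTo c U₀ x).Finite) (hfin₁ : (polyTo c U₁ y).Finite)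
    (hinj : Function.Injective (polyTo c U₀ x))
    (z : Spec (CommRingCat.of k))
    (hunif : IsLocalRing.maximalIdeal (C.presheaf.stalk (e z)) =
      Ideal.span {(C.presheaf.germ U₁ (e z) (he₁ z)).hom y}) :
    ∃ h : Γ(C, U₀), h ≠ 0 ∧ ((res (C.basicOpen_le h)).comp (polyTo c U₀ x)).Etale := by
  haveI : Nonempty U₁ := ⟨⟨e z, he₁ z⟩⟩
  haveI : Nonempty U₀ := by
    by_contra hne
    have hbot : U₀ = ⊥ := by
      rw [← TopologicalSpace.Opens.not_nonempty_iff_eq_bot]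
      intro ⟨p, hp⟩
      exact hne ⟨⟨p, hp⟩⟩
    subst hbot
    have h01 : (0 : k[X]) = 1 := hinj (Subsingleton.elim _ _)
    exact zero_ne_one h01
  haveI := functionField_isFractionRing_of_isAffineOpen C U₀ hU₀
  haveI := functionField_isFractionRing_of_isAffineOpen C U₁ hU₁
  let P := hU₁.primeIdealOf ⟨e z, he₁ z⟩
  letI : Algebra Γ(C, U₁) (C.presheaf.stalk (e z)) :=
    TopCat.Presheaf.algebra_section_stalk C.presheaf ⟨e z, he₁ z⟩
  haveI hloc : IsLocalization.AtPrime (C.presheaf.stalk (e z)) P.asIdeal :=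
    hU₁.isLocalization_stalk ⟨e z, he₁ z⟩
  have hgerm : ∀ w : Γ(C, U₁), algebraMap Γ(C, U₁) (C.presheaf.stalk (e z)) w =
      (C.presheaf.germ U₁ (e z) (he₁ z)).hom w := fun w => rfl
  have hym : y ∈ P.asIdeal := by
    rw [← IsLocalization.AtPrime.to_map_mem_maximal_iff (C.presheaf.stalk (e z)) P.asIdeal y,
      hgerm, hunif]
    exact Ideal.mem_span_singleton_self _
  have hunif' : ∀ w ∈ P.asIdeal, ∃ a s : Γ(C, U₁), s ∉ P.asIdeal ∧ s * w = a * y := by
    intro w hw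
    have hw' : (C.presheaf.germ U₁ (e z) (he₁ z)).hom w ∈
        IsLocalRing.maximalIdeal (C.presheaf.stalk (e z)) := by
      rw [← hgerm]
      exact (IsLocalization.AtPrime.to_map_mem_maximal_iff (C.presheaf.stalk (e z))
        P.asIdeal w).mpr hw
    rw [hunif, Ideal.mem_span_singleton'] at hw'
    obtain ⟨u, hu⟩ := hw'
    obtain ⟨⟨a, s⟩, has⟩ := IsLocalization.surj P.asIdeal.primeCompl u
    refine ⟨a, s.1, s.2, ?_⟩
    apply germ_injective_of_isIntegral C (e z) (he₁ z)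
    have has' : u * (C.presheaf.germ U₁ (e z) (he₁ z)).hom s.1 =
        (C.presheaf.germ U₁ (e z) (he₁ z)).hom a := has
    change (C.presheaf.germ U₁ (e z) (he₁ z)).hom (s.1 * w) =
      (C.presheaf.germ U₁ (e z) (he₁ z)).hom (a * y)
    rw [map_mul, map_mul, ← hu, ← has']
    ring
  have hres : ∀ b : Γ(C, U₁), ∃ a : k, b - kSec c U₁ a ∈ P.asIdeal := by
    intro b
    refine ⟨evAt e U₁ he₁ b, ?_⟩
    apply mem_primeIdealOf_of_evAt_eq_zero e U₁ hU₁ he₁ z
    rw [map_sub, evAt_kSec c e he, sub_self]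
  obtain ⟨h, h0, hS⟩ := sep_core (K := C.functionField) (kSec c U₀) (kSec c U₁)
    (algebraMap_comp_kSec c U₀ U₁) x y (algebraMap_mul_eq_one x y h2.mul_eq_one)
    hfin₀.finiteType hfin₁.finiteType hinj P.asIdeal hym hunif' hres
  refine ⟨h, h0, ?_⟩
  letI : Algebra Γ(C, U₀) Γ(C, C.basicOpen h) := (res (C.basicOpen_le h)).toAlgebra
  haveI : IsLocalization.Away h Γ(C, C.basicOpen h) :=
    hU₀.isLocalization_of_eq_basicOpen h (homOfLE (C.basicOpen_le h)) rfl
  exact hS Γ(C, C.basicOpen h)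

end Glue

/-- **CURVE-BCOVER-SEP** from the two-chart cover with a uniformizer at the marked point. -/
theorem stmt_BCOVER_SEP_of_UNIF (hB : Stmt_BCOVER_UNIF.{u}) : Stmt_BCOVER_SEP.{u} := by
  intro k _ _ C c _ _ _ e he
  obtain ⟨U₀, U₁, x, y, h2, hU₀, hU₁, hpt, hfin₀, hfin₁, hinj₀, hinj₁, hunif⟩ := hB k c e he
  refine ⟨U₀, U₁, x, y, h2, hU₀, hU₁, hpt, hfin₀, hfin₁, hinj₀, hinj₁, ?_⟩
  obtain ⟨z⟩ : Nonempty (Spec (CommRingCat.of k)) := inferInstance
  exact sep_of_unif c e he U₀ U₁ x y h2 hU₀ hU₁ (fun z => (hpt z).1) hfin₀ hfin₁ hinj₀ z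
    (hunif z (hpt z).1)

end H64

end Fermat.Agent.S25.Curve
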