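/-
helper64, S25 package CURVE, leaf CURVE-POLE (`Stmt_POLE` of `S25/Curve/DefsB.lean`) and the
wiring `Stmt_BCOVER_T → Stmt_BCOVER_UNIF → Stmt_BCOVER_SEP`.

POLE: the local ring at a rational point of a smooth integral curve is a discrete valuation ring,
so it has a uniformizer.  The point is not the generic point: otherwise the evaluation at the
point would be injective on an affine chart, the chart would consist of constants only, and the
function field would be algebraic over `k`, against `trdeg = 1`.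
-/
import Mathlib
import Fermat.Agent.S25.Curve.DefsB
import Fermat.Agent.S25.Curve.H51_Dim1
import Fermat.Agent.S25.Curve.H64_Sep

set_option autoImplicit false

universe u

open CategoryTheory CategoryTheory.Limits AlgebraicGeometry Polynomial

namespace Fermat.Agent.S25.Curve.H64

section Pole

variable {k : Type u} [Field k] {C : Scheme.{u}} [IsIntegral C]

/-- The constants of `S26` in terms of `kSec`. -/
theorem constHom_eq (c : C ⟶ Spec (CommRingCat.of k)) (U : C.Opens) [Nonempty U] (a : k) :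
    Fermat.Agent.S26.constHom c a = (C.germToFunctionField U).hom (kSec c U a) := by
  rw [← Fermat.Agent.S26.G.H8.germ_constSec c U a]
  congr 1

/-- A rational point of a curve is not the generic point. -/
theorem ne_genericPoint (c : C ⟶ Spec (CommRingCat.of k)) [SmoothOfRelativeDimension 1 c]
    (e : Spec (CommRingCat.of k) ⟶ C) (he : e ≫ c = 𝟙 _) (z : Spec (CommRingCat.of k)) :
    e z ≠ genericPoint C := by
  intro hgen
  obtain ⟨_, ⟨U, hU, rfl⟩, hzU, -⟩ :=
    C.isBasis_affineOpens.exists_subset_of_mem_open (Set.mem_univ (e z)) isOpen_univ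
  haveI : Nonempty U := ⟨⟨e z, hzU⟩⟩
  have he₁ : ∀ z', e z' ∈ U := by
    intro z'
    rw [Subsingleton.elim z' z]
    exact hzU
  -- the prime of the point is zero
  have hbot : (hU.primeIdealOf ⟨e z, hzU⟩).asIdeal = ⊥ := by
    have h1 : (⟨e z, hzU⟩ : U) = ⟨genericPoint C,
        ((genericPoint_spec C).mem_open_set_iff U.isOpen).mpr (by simpa using ‹Nonempty U›)⟩ :=
      Subtype.ext hgen
    rw [h1, hU.primeIdealOf_genericPoint, genericPoint_eq_bot_of_affine]
    rfl
  -- every section is constant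
  have hconst : ∀ w : Γ(C, U), w = kSec c U (evAt e U he₁ w) := by
    intro w
    have h1 : w - kSec c U (evAt e U he₁ w) ∈ (hU.primeIdealOf ⟨e z, hzU⟩).asIdeal := by
      apply mem_primeIdealOf_of_evAt_eq_zero e U hU he₁ z
      rw [map_sub, evAt_kSec c e he, sub_self]
    rw [hbot, Ideal.mem_bot, sub_eq_zero] at h1
    exact h1
  -- the function field is algebraic over `k`
  letI : Algebra k C.functionField := (Fermat.Agent.S26.constHom c).toAlgebra
  haveI := functionField_isFractionRing_of_isAffineOpen C U hU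
  have hsurj : Function.Surjective (algebraMap k C.functionField) := by
    intro F
    obtain ⟨a, b, hb, rfl⟩ := IsFractionRing.div_surjective (A := Γ(C, U)) F
    refine ⟨evAt e U he₁ a / evAt e U he₁ b, ?_⟩
    rw [map_div₀]
    change Fermat.Agent.S26.constHom c _ / Fermat.Agent.S26.constHom c _ = _
    rw [constHom_eq c U, constHom_eq c U, ← hconst a, ← hconst b]
    rfl
  haveI : Algebra.IsAlgebraic k C.functionField :=
    ⟨fun F => by
      obtain ⟨a, rfl⟩ := hsurj F
      exact isAlgebraic_algebraMap a⟩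
  have h0 : Algebra.trdeg k C.functionField = 0 := trdeg_eq_zero
  have h1 : Algebra.trdeg k C.functionField = ((1 : ℕ) : Cardinal) :=
    Fermat.Agent.S26.G.H8.trdeg_functionField c 1
  rw [h0, Nat.cast_one] at h1
  exact zero_ne_one h1

end Pole

/-- **CURVE-POLE**. -/
theorem stmt_POLE : Stmt_POLE.{u} := by
  intro k _ C c _ _ _ e he z
  have hne := ne_genericPoint c e he z
  have hco := H51.coheight_eq_one c (e z) hne
  haveI : IsLocallyNoetherian C := LocallyOfFiniteType.isLocallyNoetherian c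
  haveI : Smooth c := SmoothOfRelativeDimension.smooth 1 c
  haveI := Fermat.Agent.S26.H39.isDiscreteValuationRing_stalk c (e z) hco
  obtain ⟨ϖ, hϖ⟩ := IsDiscreteValuationRing.exists_irreducible (C.presheaf.stalk (e z))
  exact ⟨ϖ, hϖ.ne_zero, hϖ.maximalIdeal_eq⟩

/-- `Stmt_BCOVER_T` and `Stmt_POLE` give the two-chart cover with a uniformizer at the marked
point. -/
theorem stmt_BCOVER_UNIF_of (hT : Stmt_BCOVER_T.{u}) (hP : Stmt_POLE.{u}) :
    Stmt_BCOVER_UNIF.{u} := by
  intro k _ _ C c _ _ _ e he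
  obtain ⟨z⟩ : Nonempty (Spec (CommRingCat.of k)) := inferInstance
  obtain ⟨s, hs0, hs⟩ := hP k c e he z
  have hsm : s ∈ IsLocalRing.maximalIdeal (C.presheaf.stalk (e z)) := by
    rw [hs]; exact Ideal.mem_span_singleton_self s
  obtain ⟨U₀, U₁, x, y, h₁, h2, hU₀, hU₁, h₀, hy, hfin₀, hfin₁, hinj₀, hinj₁⟩ :=
    hT k c e he z s hs0 hsm
  refine ⟨U₀, U₁, x, y, h2, hU₀, hU₁, ?_, hfin₀, hfin₁, hinj₀, hinj₁, ?_⟩
  · intro z'
    rw [Subsingleton.elim z' z]
    exact ⟨h₁, h₀⟩
  · intro z' hz'
    obtain rfl : z' = z := Subsingleton.elim z' z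
    rw [hs]
    congr 2
    exact hy.symm

/-- **CURVE-BCOVER-SEP** from the assembly `Stmt_BCOVER_T`. -/
theorem stmt_BCOVER_SEP_of_T (hT : Stmt_BCOVER_T.{u}) : Stmt_BCOVER_SEP.{u} :=
  stmt_BCOVER_SEP_of_UNIF (stmt_BCOVER_UNIF_of hT stmt_POLE)

/-- `Stmt_BCOVER` from the assembly `Stmt_BCOVER_T`. -/
theorem stmt_BCOVER_of_T (hT : Stmt_BCOVER_T.{u}) : Stmt_BCOVER.{u} := by
  intro k _ _ C c _ _ _ e he
  obtain ⟨U₀, U₁, x, y, h2, hU₀, hU₁, hpt, hfin₀, hfin₁, hinj₀, hinj₁, -⟩ :=
    stmt_BCOVER_UNIF_of hT stmt_POLE k c e he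
  exact ⟨U₀, U₁, x, y, h2, hU₀, hU₁, hpt, hfin₀, hfin₁, hinj₀, hinj₁⟩

end Fermat.Agent.S25.Curve.H64
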