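/-
helper66, S25 package CURVE, leaf FINCHART: two-chart data on a proper scheme over a field with
finite fibres over the affine line: the chart is affine and finite over `k[X]`.
-/
import Mathlib
import Fermat.Agent.S25.Curve.Defs

set_option autoImplicit false
set_option linter.style.haveILetI false
set_option linter.unusedSectionVars false

universe u

open CategoryTheory CategoryTheory.Limits AlgebraicGeometry Polynomial

namespace Fermat.Agent.S25.Curve.H66

variable {k : Type u} [Field k] {C : Scheme.{u}} (c : C ⟶ Spec (CommRingCat.of k))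

/-- The chart map `U → Spec k[X]` given by a section `x` on `U`. -/
noncomputable def chartMap (U : C.Opens) (x : Γ(C, U)) :
    U.toScheme ⟶ Spec (CommRingCat.of k[X]) :=
  U.toSpecΓ ≫ Spec.map (CommRingCat.ofHom (polyTo c U x))

/-- The structure map of the affine line. -/
noncomputable def lineMap (k : Type u) [Field k] :
    Spec (CommRingCat.of k[X]) ⟶ Spec (CommRingCat.of k) :=
  Spec.map (CommRingCat.ofHom (Polynomial.C : k →+* k[X]))

theorem polyTo_comp_C (U : C.Opens) (x : Γ(C, U)) :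
    (polyTo c U x).comp (Polynomial.C : k →+* k[X]) = kSec c U := by
  ext a
  simp [polyTo]

theorem le_preimage_top (U : C.Opens) : U ≤ c ⁻¹ᵁ ⊤ := fun _ _ => trivial

theorem kSec_eq (U : C.Opens) :
    kSec c U = (c.appLE ⊤ U (le_preimage_top c U)).hom.comp
      (Scheme.ΓSpecIso (CommRingCat.of k)).inv.hom := rfl

theorem ofHom_kSec (U : C.Opens) :
    CommRingCat.ofHom (kSec c U) =
      (Scheme.ΓSpecIso (CommRingCat.of k)).inv ≫ c.appLE ⊤ U (le_preimage_top c U) := rfl

theorem chartMap_lineMap (U : C.Opens) (x : Γ(C, U)) :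
    chartMap c U x ≫ lineMap k = U.ι ≫ c := by
  unfold chartMap lineMap
  rw [Category.assoc, ← Spec.map_comp, ← CommRingCat.ofHom_comp, polyTo_comp_C, ofHom_kSec,
    Spec.map_comp, Scheme.Opens.toSpecΓ_SpecMap_appLE_assoc, Scheme.Opens.toSpecΓ_top,
    Category.assoc, toSpecΓ_SpecMap_ΓSpecIso_inv, Category.comp_id, Scheme.Hom.resLE_comp_ι]

section Props

theorem locallyOfFiniteType_chartMap (c : C ⟶ Spec (CommRingCat.of k)) [IsProper c]
    (U : C.Opens) (x : Γ(C, U)) : LocallyOfFiniteType (chartMap c U x) := by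
  have : LocallyOfFiniteType (chartMap c U x ≫ lineMap k) := by
    rw [chartMap_lineMap]; infer_instance
  exact locallyOfFiniteType_of_comp _ (lineMap k)

theorem isSeparated_chartMap (c : C ⟶ Spec (CommRingCat.of k)) [IsProper c]
    (U : C.Opens) (x : Γ(C, U)) : IsSeparated (chartMap c U x) := by
  have : IsSeparated (chartMap c U x ≫ lineMap k) := by
    rw [chartMap_lineMap]; infer_instance
  exact IsSeparated.of_comp _ (lineMap k)

theorem noetherianSpace_of_proper (c : C ⟶ Spec (CommRingCat.of k)) [IsProper c] :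
    TopologicalSpace.NoetherianSpace C := by
  haveI : IsLocallyNoetherian C := LocallyOfFiniteType.isLocallyNoetherian c
  haveI : CompactSpace C := (quasiCompact_iff_compactSpace c).mp inferInstance
  haveI : IsNoetherian C := {}
  infer_instance

theorem compactSpace_opens (c : C ⟶ Spec (CommRingCat.of k)) [IsProper c]
    (U : C.Opens) : CompactSpace U := by
  haveI := noetherianSpace_of_proper c
  exact isCompact_iff_compactSpace.mp (TopologicalSpace.NoetherianSpace.isCompact _)

theorem quasiCompact_chartMap (c : C ⟶ Spec (CommRingCat.of k)) [IsProper c]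
    (U : C.Opens) (x : Γ(C, U)) : QuasiCompact (chartMap c U x) := by
  haveI := compactSpace_opens c U
  infer_instance

end Props

section Valuative

/-- A morphism from the spectrum of a local ring lands in an open as soon as the closed point
does. -/
theorem range_subset_of_closedPoint {R : Type u} [CommRing R] [IsLocalRing R]
    (g : Spec (CommRingCat.of R) ⟶ C) (U : C.Opens)
    (h : g (IsLocalRing.closedPoint R) ∈ U) : Set.range g ⊆ (U : Set C) := by
  rintro _ ⟨r, rfl⟩
  have hs : r ⤳ IsLocalRing.closedPoint R := IsLocalRing.specializes_closedPoint r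
  exact (hs.map g.continuous).mem_open U.isOpen h

/-- Two ring homomorphisms into a domain `R` which agree in the fraction field agree. -/
theorem specMap_cancel {R K : Type u} [CommRing R] [Field K] [Algebra R K]
    (hinj : Function.Injective (algebraMap R K)) {A : CommRingCat.{u}}
    (f g : Spec (CommRingCat.of R) ⟶ Spec A)
    (h : Spec.map (CommRingCat.ofHom (algebraMap R K)) ≫ f =
      Spec.map (CommRingCat.ofHom (algebraMap R K)) ≫ g) : f = g := by
  obtain ⟨φ, rfl⟩ := Spec.map_surjective f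
  obtain ⟨ψ, rfl⟩ := Spec.map_surjective g
  rw [← Spec.map_comp, ← Spec.map_comp] at h
  have h2 := Spec.map_injective h
  congr 1
  ext a
  apply hinj
  exact congr($h2 a)

/-- Pull-back of sections over `U` along a morphism from an affine scheme to `U`. -/
noncomputable def pull {A : CommRingCat.{u}} {U : C.Opens} (g : Spec A ⟶ U.toScheme) :
    Γ(C, U) →+* A :=
  (Spec.preimage (g ≫ U.toSpecΓ)).hom

theorem specMap_pull {A : CommRingCat.{u}} {U : C.Opens} (g : Spec A ⟶ U.toScheme) :
    Spec.map (CommRingCat.ofHom (pull g)) = g ≫ U.toSpecΓ := by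
  unfold pull
  rw [CommRingCat.ofHom_hom, Spec.map_preimage]

theorem pull_eq_of {A : CommRingCat.{u}} {U : C.Opens} (g : Spec A ⟶ U.toScheme)
    (ψ : Γ(C, U) →+* A) (h : Spec.map (CommRingCat.ofHom ψ) = g ≫ U.toSpecΓ) : pull g = ψ := by
  rw [← specMap_pull] at h
  have := Spec.map_injective h
  exact (congrArg CommRingCat.Hom.hom this).symm

theorem pull_specMap_comp {A B : CommRingCat.{u}} {U : C.Opens} (g : Spec A ⟶ U.toScheme)
    (φ : A ⟶ B) : pull (Spec.map φ ≫ g) = φ.hom.comp (pull g) := by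
  apply pull_eq_of
  rw [CommRingCat.ofHom_comp, Spec.map_comp, specMap_pull, Category.assoc]
  rfl

theorem pull_homOfLE {A : CommRingCat.{u}} {U V : C.Opens} (h : V ≤ U)
    (g : Spec A ⟶ V.toScheme) : pull (g ≫ C.homOfLE h) = (pull g).comp (res h) := by
  apply pull_eq_of
  rw [CommRingCat.ofHom_comp, Spec.map_comp, specMap_pull, Category.assoc, Category.assoc]
  congr 1
  exact Scheme.Opens.toSpecΓ_SpecMap_presheaf_map V U h

theorem comp_chartMap {A : CommRingCat.{u}} {U : C.Opens} (g : Spec A ⟶ U.toScheme)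
    (x : Γ(C, U)) :
    g ≫ chartMap c U x = Spec.map (CommRingCat.ofHom ((pull g).comp (polyTo c U x))) := by
  unfold chartMap
  rw [CommRingCat.ofHom_comp, Spec.map_comp, specMap_pull, Category.assoc]

theorem mem_basicOpen_iff_pull {A : CommRingCat.{u}} {U : C.Opens} (g : Spec A ⟶ U.toScheme)
    (s : Γ(C, U)) (z : Spec A) :
    (U.ι (g z) ∈ C.basicOpen s) ↔ pull g s ∉ z.asIdeal := by
  have h1 : U.toSpecΓ ⁻¹ᵁ PrimeSpectrum.basicOpen s = U.ι ⁻¹ᵁ C.basicOpen s :=
    Scheme.Opens.toSpecΓ_preimage_basicOpen U s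
  have h2 : (g z ∈ U.ι ⁻¹ᵁ C.basicOpen s) ↔ U.ι (g z) ∈ C.basicOpen s := Iff.rfl
  rw [← h2, ← h1]
  have h3 : (g z ∈ U.toSpecΓ ⁻¹ᵁ PrimeSpectrum.basicOpen s) ↔
      (g ≫ U.toSpecΓ) z ∈ PrimeSpectrum.basicOpen s := Iff.rfl
  rw [h3, ← specMap_pull]
  rfl

theorem polyTo_X (U : C.Opens) (x : Γ(C, U)) : polyTo c U x Polynomial.X = x := by
  simp [polyTo]

/-- The existence part of the valuative criterion for the chart map. -/
theorem existence_chartMap (c : C ⟶ Spec (CommRingCat.of k)) [IsProper c]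
    (U₀ U₁ : C.Opens) (x : Γ(C, U₀)) (y : Γ(C, U₁)) (h : IsTwoChart U₀ U₁ x y) :
    ValuativeCriterion.Existence (chartMap c U₀ x) := by
  rintro ⟨R, K, i₁, i₂, ⟨w⟩⟩
  have hc : ValuativeCriterion.Existence c := by
    have h1 : UniversallyClosed c := inferInstance
    rw [UniversallyClosed.eq_valuativeCriterion] at h1
    exact h1.1
  have w' : (i₁ ≫ U₀.ι) ≫ c =
      Spec.map (CommRingCat.ofHom (algebraMap R K)) ≫ (i₂ ≫ lineMap k) := by
    rw [Category.assoc, ← chartMap_lineMap c U₀ x, ← Category.assoc, w, Category.assoc]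
  obtain ⟨⟨l', hl₁, hl₂⟩⟩ := hc ⟨R, K, i₁ ≫ U₀.ι, i₂ ≫ lineMap k, ⟨w'⟩⟩
  dsimp only at hl₁ hl₂
  have hinj : Function.Injective (algebraMap R K) := IsFractionRing.injective R K
  -- the closed point lands in `U₀`
  have hmem : l' (IsLocalRing.closedPoint R) ∈ U₀ := by
    by_contra hnot
    have h1 : l' (IsLocalRing.closedPoint R) ∈ U₁ := by
      have h2 : l' (IsLocalRing.closedPoint R) ∈ U₀ ⊔ U₁ := by rw [h.cover]; trivial
      rcases h2 with h0 | h1
      · exact absurd h0 hnot
      · exact h1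
    have hrange : Set.range l' ⊆ Set.range U₁.ι := by
      rw [Scheme.Opens.range_ι]
      exact range_subset_of_closedPoint l' U₁ h1
    let l₁ : Spec (CommRingCat.of R) ⟶ U₁.toScheme := IsOpenImmersion.lift U₁.ι l' hrange
    have hl₁' : l₁ ≫ U₁.ι = l' := IsOpenImmersion.lift_fac _ _ _
    have hr_not_unit : ¬ IsUnit (pull l₁ y) := by
      intro hu
      have h3 : U₁.ι (l₁ (IsLocalRing.closedPoint R)) ∈ C.basicOpen y := by
        refine (mem_basicOpen_iff_pull l₁ y (IsLocalRing.closedPoint R)).mpr ?_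
        intro hmemr
        exact (IsLocalRing.closedPoint R).isPrime.ne_top
          (Ideal.eq_top_of_isUnit_mem _ hmemr hu)
      rw [h.basic₁] at h3
      have h4 : U₁.ι (l₁ (IsLocalRing.closedPoint R)) = l' (IsLocalRing.closedPoint R) := by
        rw [← hl₁']; rfl
      rw [h4] at h3
      exact hnot h3.1
    -- the generic point lands in `U₀ ⊓ U₁`
    have hrangeK : Set.range (i₁ ≫ U₀.ι) ⊆ Set.range (U₀ ⊓ U₁).ι := by
      rw [Scheme.Opens.range_ι]
      rintro _ ⟨z, rfl⟩
      refine ⟨(i₁ z).2, ?_⟩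
      rw [← hl₁]
      exact range_subset_of_closedPoint l' U₁ h1 ⟨_, rfl⟩
    let j : Spec (CommRingCat.of K) ⟶ (U₀ ⊓ U₁).toScheme :=
      IsOpenImmersion.lift (U₀ ⊓ U₁).ι (i₁ ≫ U₀.ι) hrangeK
    have hj : j ≫ (U₀ ⊓ U₁).ι = i₁ ≫ U₀.ι := IsOpenImmersion.lift_fac _ _ _
    have hj₀ : i₁ = j ≫ C.homOfLE (inf_le_left : U₀ ⊓ U₁ ≤ U₀) := by
      rw [← cancel_mono U₀.ι, Category.assoc, Scheme.homOfLE_ι, hj]
    have hj₁ : Spec.map (CommRingCat.ofHom (algebraMap R K)) ≫ l₁ =
        j ≫ C.homOfLE (inf_le_right : U₀ ⊓ U₁ ≤ U₁) := by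
      rw [← cancel_mono U₁.ι, Category.assoc, Category.assoc, Scheme.homOfLE_ι, hj, hl₁', hl₁]
    have e₀ : pull i₁ x = pull j (res (inf_le_left : U₀ ⊓ U₁ ≤ U₀) x) := by
      rw [hj₀, pull_homOfLE]; rfl
    have e₁ : algebraMap R K (pull l₁ y) = pull j (res (inf_le_right : U₀ ⊓ U₁ ≤ U₁) y) := by
      have := pull_specMap_comp l₁ (CommRingCat.ofHom (algebraMap R K))
      rw [hj₁, pull_homOfLE] at this
      exact (congr($this y)).symm
    have e₂ : pull i₁ x * algebraMap R K (pull l₁ y) = 1 := by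
      rw [e₀, e₁, ← map_mul, h.mul_eq_one, map_one]
    -- `x` comes from `R`
    obtain ⟨β, rfl⟩ := Spec.map_surjective i₂
    have e₃ : (pull i₁).comp (polyTo c U₀ x) = (algebraMap R K).comp β.hom := by
      have h5 := w
      rw [comp_chartMap, ← Spec.map_comp] at h5
      have h6 := Spec.map_injective h5
      exact congrArg CommRingCat.Hom.hom h6
    have e₄ : pull i₁ x = algebraMap R K (β.hom Polynomial.X) := by
      have := congr($e₃ Polynomial.X)
      simpa [polyTo_X] using this
    rw [e₄, ← map_mul, ← (algebraMap R K).map_one, mul_comm] at e₂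
    exact hr_not_unit (IsUnit.of_mul_eq_one _ (hinj e₂))
  -- the lift
  have hrange : Set.range l' ⊆ Set.range U₀.ι := by
    rw [Scheme.Opens.range_ι]
    exact range_subset_of_closedPoint l' U₀ hmem
  refine ⟨⟨IsOpenImmersion.lift U₀.ι l' hrange, ?_, ?_⟩⟩
  · rw [← cancel_mono U₀.ι, Category.assoc, IsOpenImmersion.lift_fac, hl₁]
  · apply specMap_cancel hinj
    rw [← Category.assoc, ← w]
    congr 1
    rw [← cancel_mono U₀.ι, Category.assoc, IsOpenImmersion.lift_fac, hl₁]

end Valuative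

section Fibre

/-- The image of a point under the chart map, as a prime ideal of `k[X]`. -/
theorem chartMap_asIdeal (U : C.Opens) (x : Γ(C, U)) (p' : U.toScheme) (hp : U.ι p' ∈ U) :
    (chartMap c U x p').asIdeal =
      Ideal.comap ((C.presheaf.germ U (U.ι p') hp).hom.comp (polyTo c U x))
        (IsLocalRing.maximalIdeal (C.presheaf.stalk (U.ι p'))) := by
  ext g
  have h1 : g ∈ (chartMap c U x p').asIdeal ↔ polyTo c U x g ∈ (U.toSpecΓ p').asIdeal :=
    Iff.rfl
  have h2 : polyTo c U x g ∉ (U.toSpecΓ p').asIdeal ↔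
      p' ∈ U.toSpecΓ ⁻¹ᵁ PrimeSpectrum.basicOpen (polyTo c U x g) := Iff.rfl
  have h3 : p' ∈ U.ι ⁻¹ᵁ C.basicOpen (polyTo c U x g) ↔
      U.ι p' ∈ C.basicOpen (polyTo c U x g) := Iff.rfl
  have h4 := Scheme.mem_basicOpen C (polyTo c U x g) (U.ι p') hp
  rw [h1, ← not_not (a := polyTo c U x g ∈ (U.toSpecΓ p').asIdeal), h2,
    Scheme.Opens.toSpecΓ_preimage_basicOpen, h3, h4,
    Ideal.mem_comap, IsLocalRing.mem_maximalIdeal, mem_nonunits_iff]
  rfl

end Fibre

section Main

/-- **FINCHART**. -/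
theorem stmt_FINCHART : Stmt_FINCHART.{u} := by
  intro k _ C c _ U₀ U₁ x y h hfib
  haveI := locallyOfFiniteType_chartMap c U₀ x
  haveI := isSeparated_chartMap c U₀ x
  haveI := quasiCompact_chartMap c U₀ x
  haveI : UniversallyClosed (chartMap c U₀ x) :=
    UniversallyClosed.of_valuativeCriterion _ (existence_chartMap c U₀ U₁ x y h)
  haveI : IsProper (chartMap c U₀ x) := {}
  haveI : LocallyQuasiFinite (chartMap c U₀ x) := by
    refine LocallyQuasiFinite.of_finite_preimage_singleton _ (fun z => ?_)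
    refine Set.Finite.of_finite_image (f := fun p' : U₀.toScheme => U₀.ι p')
      ((hfib z.asIdeal z.isPrime).subset ?_) ?_
    · rintro _ ⟨p', hp', rfl⟩
      have hp : U₀.ι p' ∈ U₀ := p'.2
      refine ⟨hp, ?_⟩
      have := chartMap_asIdeal c U₀ x p' hp
      rw [Set.mem_preimage, Set.mem_singleton_iff] at hp'
      rw [hp'] at this
      exact this.symm
    · intro a _ b _ hab
      exact U₀.ι.isOpenEmbedding.injective hab
  haveI : IsFinite (chartMap c U₀ x) := IsFinite.of_isProper_of_locallyQuasiFinite _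
  have hU₀ : IsAffineOpen U₀ := isAffine_of_isAffineHom (chartMap c U₀ x)
  refine ⟨hU₀, ?_⟩
  haveI : IsIso U₀.toSpecΓ := by rw [← hU₀.isoSpec_hom]; infer_instance
  have h1 : Spec.map (CommRingCat.ofHom (polyTo c U₀ x)) =
      inv U₀.toSpecΓ ≫ chartMap c U₀ x := by
    rw [IsIso.eq_inv_comp]; rfl
  have h2 : IsFinite (Spec.map (CommRingCat.ofHom (polyTo c U₀ x))) := by
    rw [h1]; infer_instance
  exact (IsFinite.SpecMap_iff _).mp h2

end Main

end Fermat.Agent.S25.Curve.H66
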