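/-
helper89, S25 (Jacobian exists), package CURVE, leaf CURVE-DOM.

`stmt_DOM : Stmt_DOM` : for a rational function `f` on an integral scheme `X`, the set of points
`p` with `f ∈ 𝒪_{X,p}` is a nonempty open `U`, and `f` is the germ of a (unique) section over `U`.
Proof: local representatives glue, because all restriction maps to the function field are
injective and any two nonempty opens meet in a nonempty open.
-/
import Fermat.Agent.S25.Curve.Defs

set_option autoImplicit false
set_option linter.style.haveILetI false

universe u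

open CategoryTheory CategoryTheory.Limits AlgebraicGeometry TopologicalSpace Opposite

namespace Fermat.Agent.S25.Curve.H89

variable {X : Scheme.{u}} [IsIntegral X]

/-- The set of points at which the rational function `f` is regular. -/
def domSet (f : X.functionField) : Set X :=
  {p | f ∈ Set.range (algebraMap (X.presheaf.stalk p) X.functionField)}

theorem mem_domSet_of_germ {f : X.functionField} {W : X.Opens} [Nonempty W] (t : Γ(X, W))
    (ht : X.germToFunctionField W t = f) {p : X} (hp : p ∈ W) : p ∈ domSet f :=
  ⟨X.presheaf.germ W p hp t, by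
    rw [X.algebraMap_germ_eq_germToFunctionField hp t, ht]⟩

theorem exists_local (f : X.functionField) {p : X} (hp : p ∈ domSet f) :
    ∃ (W : X.Opens) (_ : Nonempty W) (t : Γ(X, W)), p ∈ W ∧ X.germToFunctionField W t = f := by
  obtain ⟨g, hg⟩ := hp
  obtain ⟨W, hpW, t, ht⟩ := X.presheaf.exists_germ_eq g
  haveI hW : Nonempty W := ⟨⟨p, hpW⟩⟩
  refine ⟨W, hW, t, hpW, ?_⟩
  rw [← hg, ← ht, X.algebraMap_germ_eq_germToFunctionField hpW t]

theorem generic_mem_domSet (f : X.functionField) : genericPoint X ∈ domSet f := by
  obtain ⟨W, hW, t, ht⟩ := X.presheaf.exists_germ_eq f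
  haveI : Nonempty W := ⟨⟨_, hW⟩⟩
  exact mem_domSet_of_germ t ht hW

theorem isOpen_domSet (f : X.functionField) : IsOpen (domSet f) := by
  rw [isOpen_iff_forall_mem_open]
  intro p hp
  obtain ⟨W, hW, t, hpW, ht⟩ := exists_local f hp
  exact ⟨W, fun q hq => mem_domSet_of_germ t ht hq, W.isOpen, hpW⟩

/-- The domain of definition of `f` as an open. -/
def dom (f : X.functionField) : X.Opens := ⟨domSet f, isOpen_domSet f⟩

theorem mem_dom {f : X.functionField} {p : X} :
    p ∈ dom f ↔ f ∈ Set.range (algebraMap (X.presheaf.stalk p) X.functionField) := Iff.rfl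

instance nonempty_dom (f : X.functionField) : Nonempty (dom f) :=
  ⟨⟨genericPoint X, generic_mem_domSet f⟩⟩

theorem generic_mem_of_nonempty (W : X.Opens) [h : Nonempty W] : genericPoint X ∈ W :=
  ((genericPoint_spec X).mem_open_set_iff W.isOpen).mpr (by simpa using h)

theorem germToFunctionField_res {V W : X.Opens} [Nonempty V] [Nonempty W] (h : V ≤ W)
    (t : Γ(X, W)) :
    X.germToFunctionField V (X.presheaf.map (homOfLE h).op t) = X.germToFunctionField W t :=
  TopCat.Presheaf.germ_res_apply X.presheaf (homOfLE h) (genericPoint X)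
    (generic_mem_of_nonempty V) t

/-- **CURVE-DOM**. -/
theorem stmt_DOM : Stmt_DOM.{u} := by
  intro X _ f
  -- local representatives
  choose W hW t hpW ht using fun p : dom f => exists_local f p.2
  have hWle : ∀ p, W p ≤ dom f := fun p q hq =>
    haveI := hW p
    mem_domSet_of_germ (t p) (ht p) hq
  have hcover : dom f ≤ iSup W := by
    intro q hq
    exact Opens.mem_iSup.mpr ⟨⟨q, hq⟩, hpW ⟨q, hq⟩⟩
  have hcompat : TopCat.Presheaf.IsCompatible X.sheaf.1 W t := by
    intro i j
    haveI := hW i
    haveI := hW j
    haveI hij : Nonempty (W i ⊓ W j : X.Opens) :=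
      ⟨⟨genericPoint X, generic_mem_of_nonempty (W i), generic_mem_of_nonempty (W j)⟩⟩
    apply Scheme.germToFunctionField_injective X (W i ⊓ W j)
    have h1 := germToFunctionField_res (inf_le_left : W i ⊓ W j ≤ W i) (t i)
    have h2 := germToFunctionField_res (inf_le_right : W i ⊓ W j ≤ W j) (t j)
    rw [ht i] at h1
    rw [ht j] at h2
    exact h1.trans h2.symm
  obtain ⟨s, hs, -⟩ := X.sheaf.existsUnique_gluing' W (dom f) (fun p => homOfLE (hWle p))
    hcover t hcompat
  refine ⟨dom f, nonempty_dom f, s, ?_, fun p => Iff.rfl⟩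
  let p₀ : dom f := ⟨genericPoint X, generic_mem_domSet f⟩
  haveI := hW p₀
  have h3 := germToFunctionField_res (hWle p₀) s
  have h4 : X.presheaf.map (homOfLE (hWle p₀)).op s = t p₀ := hs p₀
  rw [h4, ht p₀] at h3
  exact h3.symm

end Fermat.Agent.S25.Curve.H89
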