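/-
helper89, S25 (Jacobian exists), package CURVE, leaf TWOCHART (abstract part).

For a rational function `f ≠ 0` on an integral scheme `X` all of whose local rings are valuation
rings, the domains of definition `(U₀, x)` of `f` and `(U₁, y)` of `f⁻¹` form two-chart data:
`U₀ ∪ U₁ = X`, `D(x) = U₀ ∩ U₁ = D(y)`, `x y = 1`.
-/
import Fermat.Agent.S25.Curve.H89_Dom
import Fermat.Agent.S25.Curve.DefsB
import Fermat.Agent.S25.Curve.H51_Dim1
import Fermat.Agent.S26.H39_Nor

set_option autoImplicit false
set_option linter.style.haveILetI false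

universe u

open CategoryTheory CategoryTheory.Limits AlgebraicGeometry TopologicalSpace Opposite

namespace Fermat.Agent.S25.Curve.H89

variable {X : Scheme.{u}} [IsIntegral X]

theorem algebraMap_stalk_injective (p : X) :
    Function.Injective (algebraMap (X.presheaf.stalk p) X.functionField) :=
  IsFractionRing.injective _ _

/-- A point of `U` lies in the basic open of `s` iff the inverse of the rational function
defined by `s` is regular at it. -/
theorem mem_basicOpen_iff_inv_mem {f : X.functionField} (hf : f ≠ 0) {U : X.Opens} [Nonempty U]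
    (s : Γ(X, U)) (hs : X.germToFunctionField U s = f) {p : X} (hp : p ∈ U) :
    p ∈ X.basicOpen s ↔
      f⁻¹ ∈ Set.range (algebraMap (X.presheaf.stalk p) X.functionField) := by
  rw [Scheme.mem_basicOpen X s p hp]
  have hgerm : algebraMap (X.presheaf.stalk p) X.functionField (X.presheaf.germ U p hp s) = f := by
    rw [X.algebraMap_germ_eq_germToFunctionField hp s, hs]
  constructor
  · intro hu
    obtain ⟨u, hu⟩ := hu
    refine ⟨((u⁻¹ : (X.presheaf.stalk p)ˣ) : X.presheaf.stalk p), ?_⟩
    have h1 : algebraMap (X.presheaf.stalk p) X.functionField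
        (((u⁻¹ : (X.presheaf.stalk p)ˣ) : X.presheaf.stalk p) * (u : X.presheaf.stalk p)) = 1 := by
      rw [Units.inv_mul, map_one]
    rw [map_mul, hu, hgerm] at h1
    exact eq_inv_of_mul_eq_one_left h1
  · rintro ⟨g, hg⟩
    have h1 : algebraMap (X.presheaf.stalk p) X.functionField
        (g * X.presheaf.germ U p hp s) = algebraMap (X.presheaf.stalk p) X.functionField 1 := by
      rw [map_mul, hg, hgerm, map_one, inv_mul_cancel₀ hf]
    exact IsUnit.of_mul_eq_one_right g (algebraMap_stalk_injective p h1)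

/-- Abstract TWOCHART: sections representing `f` and `f⁻¹` on their domains of definition. -/
theorem isTwoChart_of_dom {f : X.functionField} (hf : f ≠ 0)
    (hval : ∀ p : X, f ∈ Set.range (algebraMap (X.presheaf.stalk p) X.functionField) ∨
      f⁻¹ ∈ Set.range (algebraMap (X.presheaf.stalk p) X.functionField))
    {U₀ U₁ : X.Opens} [Nonempty U₀] [Nonempty U₁] (x : Γ(X, U₀)) (y : Γ(X, U₁))
    (hx : X.germToFunctionField U₀ x = f) (hy : X.germToFunctionField U₁ y = f⁻¹)
    (h₀ : ∀ p : X, p ∈ U₀ ↔ f ∈ Set.range (algebraMap (X.presheaf.stalk p) X.functionField))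
    (h₁ : ∀ p : X, p ∈ U₁ ↔ f⁻¹ ∈ Set.range (algebraMap (X.presheaf.stalk p) X.functionField)) :
    IsTwoChart U₀ U₁ x y := by
  have hf' : f⁻¹ ≠ 0 := inv_ne_zero hf
  refine ⟨?_, ?_, ?_, ?_⟩
  · -- cover
    rw [eq_top_iff]
    intro p _
    rcases hval p with h | h
    · exact Or.inl ((h₀ p).mpr h)
    · exact Or.inr ((h₁ p).mpr h)
  · -- basic₀
    ext p
    constructor
    · intro hp
      have hpU : p ∈ U₀ := X.basicOpen_le x hp
      exact ⟨hpU, (h₁ p).mpr ((mem_basicOpen_iff_inv_mem hf x hx hpU).mp hp)⟩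
    · rintro ⟨hp0, hp1⟩
      exact (mem_basicOpen_iff_inv_mem hf x hx hp0).mpr ((h₁ p).mp hp1)
  · -- basic₁
    ext p
    constructor
    · intro hp
      have hpU : p ∈ U₁ := X.basicOpen_le y hp
      have := (mem_basicOpen_iff_inv_mem hf' y hy hpU).mp hp
      rw [inv_inv] at this
      exact ⟨(h₀ p).mpr this, hpU⟩
    · rintro ⟨hp0, hp1⟩
      refine (mem_basicOpen_iff_inv_mem hf' y hy hp1).mpr ?_
      rw [inv_inv]
      exact (h₀ p).mp hp0
  · -- mul_eq_one
    haveI : Nonempty (U₀ ⊓ U₁ : X.Opens) :=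
      ⟨⟨genericPoint X, generic_mem_of_nonempty U₀, generic_mem_of_nonempty U₁⟩⟩
    apply Scheme.germToFunctionField_injective X (U₀ ⊓ U₁)
    rw [map_mul, map_one]
    have e0 : X.germToFunctionField (U₀ ⊓ U₁) (res (inf_le_left : U₀ ⊓ U₁ ≤ U₀) x) = f :=
      (germToFunctionField_res (inf_le_left : U₀ ⊓ U₁ ≤ U₀) x).trans hx
    have e1 : X.germToFunctionField (U₀ ⊓ U₁) (res (inf_le_right : U₀ ⊓ U₁ ≤ U₁) y) = f⁻¹ :=
      (germToFunctionField_res (inf_le_right : U₀ ⊓ U₁ ≤ U₁) y).trans hy
    rw [e0, e1, mul_inv_cancel₀ hf]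

/-- If the local ring at `p` is a valuation ring, `f` or `f⁻¹` is regular at `p`. -/
theorem mem_or_inv_mem_of_valuationRing (f : X.functionField) (p : X)
    [ValuationRing (X.presheaf.stalk p)] :
    f ∈ Set.range (algebraMap (X.presheaf.stalk p) X.functionField) ∨
      f⁻¹ ∈ Set.range (algebraMap (X.presheaf.stalk p) X.functionField) :=
  ValuationRing.isInteger_or_isInteger (X.presheaf.stalk p) f

/-- On a smooth integral curve over a field, every rational function or its inverse is regular
at every point. -/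
theorem mem_or_inv_mem_of_curve {k : Type u} [Field k] {C : Scheme.{u}}
    (c : C ⟶ Spec (CommRingCat.of k)) [LocallyOfFiniteType c] [SmoothOfRelativeDimension 1 c]
    [IsIntegral C] (f : C.functionField) (p : C) :
    f ∈ Set.range (algebraMap (C.presheaf.stalk p) C.functionField) ∨
      f⁻¹ ∈ Set.range (algebraMap (C.presheaf.stalk p) C.functionField) := by
  by_cases hp : p = genericPoint C
  · subst hp
    exact Or.inl (generic_mem_domSet f)
  · haveI : Smooth c := SmoothOfRelativeDimension.smooth 1 c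
    haveI : IsLocallyNoetherian C := LocallyOfFiniteType.isLocallyNoetherian c
    haveI : IsDiscreteValuationRing (C.presheaf.stalk p) :=
      Fermat.Agent.S26.H39.isDiscreteValuationRing_stalk c p (H51.coheight_eq_one c p hp)
    exact mem_or_inv_mem_of_valuationRing f p

/-- **CURVE-TWOCHART**. -/
theorem stmt_TWOCHART : Stmt_TWOCHART.{u} := by
  intro k _ C c _ _ _ f hf U₀ U₁ _ _ x y h₀ h₁
  exact isTwoChart_of_dom hf (fun p => mem_or_inv_mem_of_curve c f p) x y
    h₀.germ_eq h₁.germ_eq h₀.mem_iff h₁.mem_iff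

end Fermat.Agent.S25.Curve.H89
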