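/-
helper93, S25 (Jacobian exists), package CURVE, leaf CURVE-TRANS.

`stmt_TRANS : Stmt_TRANS`: a rational function with a pole is transcendental over `k`, and so is its inverse.

Proof.  If `P(x) = 0` with `P ≠ 0`, then `f` is integral over `k`, hence over every local ring `O_p`; the local
rings are integrally closed (smoothness: `S26.H39.isIntegrallyClosed_stalk`), so `f ∈ O_p` for all `p`, i.e.
the domain of definition of `f` is everything.  For `1/f`: reverse the polynomial.
-/
import Fermat.Agent.S25.Curve.DefsB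
import Fermat.Agent.S26.H39_Nor

set_option autoImplicit false

universe u

open CategoryTheory CategoryTheory.Limits AlgebraicGeometry Polynomial

namespace Fermat.Agent.S25.Curve.H93T

open Fermat.Agent.S25.Curve

variable {k : Type u} [Field k] {C : Scheme.{u}} (c : C ⟶ Spec (CommRingCat.of k))

/-- The constants restrict to the constants. -/
theorem res_kSec {U V : C.Opens} (h : V ≤ U) (a : k) : res h (kSec c U a) = kSec c V a := by
  change (C.presheaf.map (homOfLE h).op).hom ((c.appLE ⊤ U le_top).hom _) = (c.appLE ⊤ V le_top).hom _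
  rw [← CommRingCat.comp_apply, Scheme.Hom.appLE_map]

variable [IsIntegral C]

/-- The constants in the function field. -/
noncomputable def kFun : k →+* C.functionField :=
  haveI : Nonempty (⊤ : C.Opens) := ⟨⟨Classical.arbitrary C, trivial⟩⟩
  (C.germToFunctionField ⊤).hom.comp (kSec c ⊤)

theorem generic_mem (W : C.Opens) [h : Nonempty W] : genericPoint C ∈ W :=
  ((genericPoint_spec C).mem_open_set_iff W.isOpen).mpr (by simpa using h)

theorem germToFunctionField_kSec (U : C.Opens) [Nonempty U] (a : k) :
    C.germToFunctionField U (kSec c U a) = kFun c a := by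
  have : Nonempty (⊤ : C.Opens) := ⟨⟨Classical.arbitrary C, trivial⟩⟩
  rw [← res_kSec c (le_top : U ≤ ⊤) a]
  exact TopCat.Presheaf.germ_res_apply C.presheaf (homOfLE (le_top : U ≤ ⊤)) (genericPoint C)
    (generic_mem U) _

/-- The germ of `P(s)` in the function field. -/
theorem germToFunctionField_polyTo (U : C.Opens) [Nonempty U] (s : Γ(C, U)) (P : k[X]) :
    C.germToFunctionField U (polyTo c U s P) =
      Polynomial.eval₂ (kFun c) (C.germToFunctionField U s) P := by
  have h := Polynomial.hom_eval₂ P (kSec c U) (C.germToFunctionField U).hom s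
  have h2 : (C.germToFunctionField U).hom.comp (kSec c U) = kFun c := by
    ext a
    exact germToFunctionField_kSec c U a
  rw [h2] at h
  exact h

/-- The constants in a local ring. -/
noncomputable def kStalk (p : C) : k →+* C.presheaf.stalk p :=
  (C.presheaf.germ ⊤ p trivial).hom.comp (kSec c ⊤)

theorem algebraMap_kStalk (p : C) (a : k) :
    algebraMap (C.presheaf.stalk p) C.functionField (kStalk c p a) = kFun c a := by
  have : Nonempty (⊤ : C.Opens) := ⟨⟨Classical.arbitrary C, trivial⟩⟩
  exact C.algebraMap_germ_eq_germToFunctionField (U := ⊤) trivial (kSec c ⊤ a)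

/-- An element of the function field which is a root of a nonzero polynomial over `k` lies in every
local ring. -/
theorem mem_range_of_eval₂_eq_zero [Smooth c] (f : C.functionField) (P : k[X]) (hP : P ≠ 0)
    (h0 : Polynomial.eval₂ (kFun c) f P = 0) (p : C) :
    f ∈ Set.range (algebraMap (C.presheaf.stalk p) C.functionField) := by
  have := Fermat.Agent.S26.H39.isIntegrallyClosed_stalk c p
  have hlc : P.leadingCoeff ≠ 0 := Polynomial.leadingCoeff_ne_zero.mpr hP
  -- the monic polynomial
  set Q : k[X] := P * Polynomial.C P.leadingCoeff⁻¹ with hQ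
  have hQm : Q.Monic := Polynomial.monic_mul_leadingCoeff_inv hP
  have hQ0 : Polynomial.eval₂ (kFun c) f Q = 0 := by
    rw [hQ, Polynomial.eval₂_mul, h0, zero_mul]
  have hint : IsIntegral (C.presheaf.stalk p) f := by
    refine ⟨Q.map (kStalk c p), hQm.map _, ?_⟩
    rw [Polynomial.eval₂_map]
    have h2 : (algebraMap (C.presheaf.stalk p) C.functionField).comp (kStalk c p) = kFun c := by
      ext a
      exact algebraMap_kStalk c p a
    rw [h2]
    exact hQ0
  obtain ⟨y, hy⟩ := IsIntegrallyClosed.algebraMap_eq_of_integral hint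
  exact ⟨y, hy⟩

/-- If the inverse of `f ≠ 0` is a root of a nonzero polynomial, so is `f`. -/
theorem exists_eval₂_eq_zero_of_inv (f : C.functionField) (hf : f ≠ 0) (P : k[X]) (hP : P ≠ 0)
    (h0 : Polynomial.eval₂ (kFun c) f⁻¹ P = 0) :
    ∃ Q : k[X], Q ≠ 0 ∧ Polynomial.eval₂ (kFun c) f Q = 0 := by
  refine ⟨P.reverse, fun h => hP (Polynomial.reverse_eq_zero.mp h), ?_⟩
  let _ : Invertible f⁻¹ := ⟨f, mul_inv_cancel₀ hf, inv_mul_cancel₀ hf⟩
  have h1 := Polynomial.eval₂_reverse_mul_pow (kFun c) f⁻¹ P
  have h2 : (⅟(f⁻¹) : C.functionField) = f := rfl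
  rw [h2, h0] at h1
  have h3 : (f⁻¹) ^ P.natDegree ≠ 0 := pow_ne_zero _ (inv_ne_zero hf)
  exact (mul_eq_zero.mp h1).resolve_right h3

/-- **CURVE-TRANS**. -/
theorem stmt_TRANS : Stmt_TRANS.{u} := by
  intro k _ C c _ _ _ f hf U₀ U₁ _ _ x y hx hy hU
  have : Smooth c := SmoothOfRelativeDimension.smooth 1 c
  have key : ∀ P : k[X], P ≠ 0 → Polynomial.eval₂ (kFun c) f P ≠ 0 := by
    intro P hP h0
    apply hU
    ext p
    simp only [TopologicalSpace.Opens.coe_top, Set.mem_univ, iff_true]
    exact (hx.mem_iff p).2 (mem_range_of_eval₂_eq_zero c f P hP h0 p)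
  constructor
  · rw [injective_iff_map_eq_zero]
    intro P hP
    by_contra hne
    apply key P hne
    rw [← hx.germ_eq, ← germToFunctionField_polyTo, hP, map_zero]
  · rw [injective_iff_map_eq_zero]
    intro P hP
    by_contra hne
    have h0 : Polynomial.eval₂ (kFun c) f⁻¹ P = 0 := by
      rw [← hy.germ_eq, ← germToFunctionField_polyTo, hP, map_zero]
    obtain ⟨Q, hQ, hQ0⟩ := exists_eval₂_eq_zero_of_inv c f hf P hne h0
    exact key Q hQ hQ0

end Fermat.Agent.S25.Curve.H93T
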