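/-
helper66, S25 package CURVE: assembly of the two-chart cover `Stmt_BCOVER_T`, `Stmt_BCOVER_UNIF`,
`Stmt_BCOVER` from the leaves DOM, TWOCHART, TRANS, FIBRE, FINCHART, POLE.
-/
import Mathlib
import Fermat.Agent.S25.Curve.DefsB
import Fermat.Agent.S25.Curve.H66_FinChart
import Fermat.Agent.S25.Curve.H89_Dom
import Fermat.Agent.S25.Curve.H89_TwoChart
import Fermat.Agent.S25.Curve.H93_Trans
import Fermat.Agent.S25.Curve.H64_Sep

set_option autoImplicit false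
set_option linter.style.haveILetI false
set_option linter.unusedSectionVars false

universe u

open CategoryTheory CategoryTheory.Limits AlgebraicGeometry Polynomial

namespace Fermat.Agent.S25.Curve.H66

/-- **BCOVER_T** from FIBRE. -/
theorem stmt_BCOVER_T_of (hF : Stmt_FIBRE.{u}) : Stmt_BCOVER_T.{u} := by
  intro k _ _ C c _ _ _ e he z s hs0 hsm
  have hinjS := H89.algebraMap_stalk_injective (X := C) (e z)
  set t : C.functionField := algebraMap (C.presheaf.stalk (e z)) C.functionField s with ht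
  have ht0 : t ≠ 0 := by
    intro h
    apply hs0
    apply hinjS
    rw [← ht, h, map_zero]
  obtain ⟨U₀, hne₀, x, hx, hxm⟩ := H89.stmt_DOM t⁻¹
  obtain ⟨U₁, hne₁, y, hy, hym⟩ := H89.stmt_DOM t
  have d₀ : IsDomOf t⁻¹ U₀ x := ⟨hx, hxm⟩
  have d₁' : IsDomOf t U₁ y := ⟨hy, hym⟩
  have d₁ : IsDomOf (t⁻¹)⁻¹ U₁ y := by rw [inv_inv]; exact d₁'
  have h2 : IsTwoChart U₀ U₁ x y :=
    H89.stmt_TWOCHART k c t⁻¹ (inv_ne_zero ht0) U₀ U₁ x y d₀ d₁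
  have h2' : IsTwoChart U₁ U₀ y x := H89.stmt_TWOCHART k c t ht0 U₁ U₀ y x d₁' d₀
  have h₁ : e z ∈ U₁ := (hym (e z)).mpr ⟨s, rfl⟩
  have h₀ : e z ∉ U₀ := by
    intro hmem
    obtain ⟨s', hs'⟩ := (hxm (e z)).mp hmem
    have h3 : s * s' = 1 := by
      apply hinjS
      rw [map_mul, hs', map_one]
      exact mul_inv_cancel₀ ht0
    exact (IsLocalRing.mem_maximalIdeal _).mp hsm (IsUnit.of_mul_eq_one _ h3)
  have hU₀top : U₀ ≠ ⊤ := fun h => h₀ (h ▸ trivial)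
  obtain ⟨hinj₀, hinj₁⟩ :=
    H93T.stmt_TRANS k c t⁻¹ (inv_ne_zero ht0) U₀ U₁ x y d₀ d₁ hU₀top
  obtain ⟨hA₀, hfin₀⟩ := H66.stmt_FINCHART k c U₀ U₁ x y h2 (hF k c U₀ x hinj₀)
  obtain ⟨hA₁, hfin₁⟩ := H66.stmt_FINCHART k c U₁ U₀ y x h2' (hF k c U₁ y hinj₁)
  refine ⟨U₀, U₁, x, y, h₁, h2, hA₀, hA₁, h₀, ?_, hfin₀, hfin₁, hinj₀, hinj₁⟩
  apply hinjS
  rw [Scheme.algebraMap_germ_eq_germToFunctionField, hy]

/-- **BCOVER_UNIF** from BCOVER_T and POLE. -/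
theorem stmt_BCOVER_UNIF_of (hT : Stmt_BCOVER_T.{u}) (hP : Stmt_POLE.{u}) :
    Stmt_BCOVER_UNIF.{u} := by
  intro k _ _ C c _ _ _ e he
  obtain ⟨z₀⟩ : Nonempty (Spec (CommRingCat.of k)) := inferInstance
  obtain ⟨s, hs0, hsm⟩ := hP k c e he z₀
  have hmem : s ∈ IsLocalRing.maximalIdeal (C.presheaf.stalk (e z₀)) := by
    rw [hsm]; exact Ideal.subset_span rfl
  obtain ⟨U₀, U₁, x, y, h₁, h2, hA₀, hA₁, h₀, hgerm, hfin₀, hfin₁, hinj₀, hinj₁⟩ :=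
    hT k c e he z₀ s hs0 hmem
  have hsub : ∀ z : Spec (CommRingCat.of k), z = z₀ := fun z => Subsingleton.elim _ _
  refine ⟨U₀, U₁, x, y, h2, hA₀, hA₁, ?_, hfin₀, hfin₁, hinj₀, hinj₁, ?_⟩
  · intro z
    rw [hsub z]
    exact ⟨h₁, h₀⟩
  · intro z hz
    obtain rfl := hsub z
    rw [hsm]
    congr 2
    exact hgerm.symm

/-- **BCOVER** from BCOVER_UNIF. -/
theorem stmt_BCOVER_of (hU : Stmt_BCOVER_UNIF.{u}) : Stmt_BCOVER.{u} := by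
  intro k _ _ C c _ _ _ e he
  obtain ⟨U₀, U₁, x, y, h2, hA₀, hA₁, hpt, hfin₀, hfin₁, hinj₀, hinj₁, -⟩ := hU k c e he
  exact ⟨U₀, U₁, x, y, h2, hA₀, hA₁, hpt, hfin₀, hfin₁, hinj₀, hinj₁⟩

end Fermat.Agent.S25.Curve.H66
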