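/-
helper72, S25 package CURVE, leaf FIBRE: the chart map `U → Spec k[X]` of a transcendental
section `x` on an open `U` of a proper smooth integral curve has finite fibres.

* `mem_comap_iff`      : `g` lies in the pulled-back maximal ideal at `p` iff `p ∉ D(g(x))`;
* `asIdeal_chartMap`   : the point `chartMap c U x ⟨p, hp⟩` of `Spec k[X]` is that pulled-back ideal;
* `finite_fibre_of_ne_bot` : the fibre over a nonzero prime is inside the zero set of `g(x)`;
* `fibre_bot_subset`   : the fibre over the generic point is inside `{genericPoint C}`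
  (closed points go to closed points);
* `stmt_FIBRE : Stmt_FIBRE`.
-/
import Mathlib
import Fermat.Agent.S25.Curve.DefsB
import Fermat.Agent.S25.Curve.H51_Dim1
import Fermat.Agent.S25.Curve.H66_FinChart

set_option autoImplicit false
set_option linter.style.haveILetI false
set_option linter.unusedSectionVars false

universe u

open CategoryTheory CategoryTheory.Limits AlgebraicGeometry Polynomial

namespace Fermat.Agent.S25.Curve.H72

variable {k : Type u} [Field k] {C : Scheme.{u}} (c : C ⟶ Spec (CommRingCat.of k))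

/-- `g` lies in the pull-back of the maximal ideal at `p` iff `g(x)` vanishes at `p`. -/
theorem mem_comap_iff (U : C.Opens) (x : Γ(C, U)) (p : C) (hp : p ∈ U) (g : k[X]) :
    g ∈ Ideal.comap ((C.presheaf.germ U p hp).hom.comp (polyTo c U x))
        (IsLocalRing.maximalIdeal (C.presheaf.stalk p)) ↔
      p ∉ C.basicOpen (polyTo c U x g) := by
  rw [Ideal.mem_comap, Scheme.mem_basicOpen _ _ _ hp, IsLocalRing.mem_maximalIdeal]
  rfl

/-- The image of `p` under the chart map is the pull-back of the maximal ideal at `p`. -/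
theorem asIdeal_chartMap (U : C.Opens) (x : Γ(C, U)) (p : C) (hp : p ∈ U) :
    (H66.chartMap c U x ⟨p, hp⟩).asIdeal =
      Ideal.comap ((C.presheaf.germ U p hp).hom.comp (polyTo c U x))
        (IsLocalRing.maximalIdeal (C.presheaf.stalk p)) := by
  ext g
  rw [mem_comap_iff]
  have h1 : U.toSpecΓ ⁻¹ᵁ PrimeSpectrum.basicOpen (polyTo c U x g) =
      U.ι ⁻¹ᵁ C.basicOpen (polyTo c U x g) :=
    Scheme.Opens.toSpecΓ_preimage_basicOpen U _
  have h2 : ((⟨p, hp⟩ : U) ∈ U.ι ⁻¹ᵁ C.basicOpen (polyTo c U x g)) ↔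
      p ∈ C.basicOpen (polyTo c U x g) := Iff.rfl
  rw [← h2, ← h1]
  have h3 : ((⟨p, hp⟩ : U) ∈ U.toSpecΓ ⁻¹ᵁ PrimeSpectrum.basicOpen (polyTo c U x g)) ↔
      polyTo c U x g ∉ (U.toSpecΓ ⟨p, hp⟩).asIdeal := Iff.rfl
  rw [h3, not_not]
  rfl

variable [IsProper c] [SmoothOfRelativeDimension 1 c] [IsIntegral C]

/-- The fibre over a nonzero prime is finite. -/
theorem finite_fibre_of_ne_bot (U : C.Opens) (x : Γ(C, U))
    (hinj : Function.Injective (polyTo c U x)) (P : Ideal k[X]) (hP : P ≠ ⊥) :
    {p : C | ∃ hp : p ∈ U,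
        Ideal.comap ((C.presheaf.germ U p hp).hom.comp (polyTo c U x))
          (IsLocalRing.maximalIdeal (C.presheaf.stalk p)) = P}.Finite := by
  obtain ⟨g, hgP, hg0⟩ := Submodule.exists_mem_ne_zero_of_ne_bot hP
  have hs : polyTo c U x g ≠ 0 := fun h => hg0 (hinj (h.trans (map_zero _).symm))
  have hb : C.basicOpen (polyTo c U x g) ≠ ⊥ := fun h => hs ((basicOpen_eq_bot_iff _).mp h)
  have hZ : IsClosed ((C.basicOpen (polyTo c U x g) : Set C)ᶜ) :=
    (C.basicOpen _).isOpen.isClosed_compl
  have hne : ((C.basicOpen (polyTo c U x g) : Set C)ᶜ) ≠ Set.univ := by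
    intro h
    apply hb
    ext z
    simp only [TopologicalSpace.Opens.coe_bot, Set.mem_empty_iff_false, iff_false]
    intro hz
    have : z ∈ ((C.basicOpen (polyTo c U x g) : Set C)ᶜ) := by rw [h]; trivial
    exact this hz
  refine (H51.finite_of_isClosed c _ hZ hne).subset ?_
  rintro p ⟨hp, hpP⟩
  have h1 : g ∈ Ideal.comap ((C.presheaf.germ U p hp).hom.comp (polyTo c U x))
      (IsLocalRing.maximalIdeal (C.presheaf.stalk p)) := by rw [hpP]; exact hgP
  exact (mem_comap_iff c U x p hp g).mp h1

/-- The fibre over the zero ideal contains at most the generic point. -/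
theorem fibre_bot_subset (U : C.Opens) (x : Γ(C, U)) :
    {p : C | ∃ hp : p ∈ U,
        Ideal.comap ((C.presheaf.germ U p hp).hom.comp (polyTo c U x))
          (IsLocalRing.maximalIdeal (C.presheaf.stalk p)) = ⊥} ⊆ {genericPoint C} := by
  rintro p ⟨hp, hpP⟩
  rw [Set.mem_singleton_iff]
  by_contra hne
  have hcl : IsClosed ({p} : Set C) := H51.isClosed_singleton c p hne
  have hclU : (⟨p, hp⟩ : U) ∈ closedPoints U.toScheme := by
    have h1 : ({(⟨p, hp⟩ : U)} : Set U) = U.ι ⁻¹' {p} := by
      ext z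
      simp only [Set.mem_singleton_iff, Set.mem_preimage]
      constructor
      · rintro rfl; rfl
      · intro h; exact Subtype.ext h
    change IsClosed ({(⟨p, hp⟩ : U)} : Set U)
    rw [h1]
    exact hcl.preimage U.ι.continuous
  haveI := H66.locallyOfFiniteType_chartMap c U x
  haveI : JacobsonSpace (Spec (CommRingCat.of k[X])) :=
    PrimeSpectrum.isJacobsonRing_iff_jacobsonSpace.mp inferInstance
  have h2 := (H66.chartMap c U x).closePoints_subset_preimage_closedPoints hclU
  have hmax : (H66.chartMap c U x ⟨p, hp⟩).asIdeal.IsMaximal :=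
    (PrimeSpectrum.isClosed_singleton_iff_isMaximal _).mp h2
  rw [asIdeal_chartMap, hpP] at hmax
  exact Ring.ne_bot_of_isMaximal_of_not_isField hmax (Polynomial.not_isField k) rfl

/-- **CURVE-FIBRE**. -/
theorem stmt_FIBRE : Stmt_FIBRE.{u} := by
  intro k _ C c _ _ _ U x hinj P _
  by_cases hP : P = ⊥
  · subst hP
    exact (Set.finite_singleton (genericPoint C)).subset (fibre_bot_subset c U x)
  · exact finite_fibre_of_ne_bot c U x hinj P hP

end Fermat.Agent.S25.Curve.H72
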