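/-
helper66, S25 package CURVE: the two-chart cover of the curve, UNCONDITIONAL
(`Stmt_BCOVER_T`, `Stmt_BCOVER_UNIF`, `Stmt_BCOVER_SEP`, `Stmt_BCOVER`).
Leaves: DOM, TWOCHART (helper89), DIM1 (helper51), TRANS (helper93), FIBRE (helper72),
POLE, SEP (helper64), FINCHART and assembly (helper66).
-/
import Fermat.Agent.S25.Curve.H66_BCover
import Fermat.Agent.S25.Curve.H72_Fibre
import Fermat.Agent.S25.Curve.H64_Pole

set_option autoImplicit false

universe u

namespace Fermat.Agent.S25.Curve.H66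

/-- **CURVE-BCOVER-T**, unconditional. -/
theorem stmt_BCOVER_T : Stmt_BCOVER_T.{u} := stmt_BCOVER_T_of H72.stmt_FIBRE

/-- **CURVE-BCOVER-UNIF**, unconditional. -/
theorem stmt_BCOVER_UNIF : Stmt_BCOVER_UNIF.{u} :=
  H64.stmt_BCOVER_UNIF_of stmt_BCOVER_T H64.stmt_POLE

/-- **CURVE-BCOVER-SEP**, unconditional. -/
theorem stmt_BCOVER_SEP : Stmt_BCOVER_SEP.{u} := H64.stmt_BCOVER_SEP_of_T stmt_BCOVER_T

/-- **CURVE-BCOVER**, unconditional. -/
theorem stmt_BCOVER : Stmt_BCOVER.{u} := H64.stmt_BCOVER_of_T stmt_BCOVER_T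

end Fermat.Agent.S25.Curve.H66
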