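/-
helper84, S25 (Jacobian exists), package CURVE, LINK leaf CURVE-DATUM:
from the two-chart cover `(U₀, U₁, x, y)` of the curve (output of `Curve.Stmt_BCOVER`) to the
affine shadow `𝒞 : LB.CurveDatum k` of `S25/LB/Defs.lean`, with
`B₀ = Γ(C, U₀)`, `B₁ = Γ(C, U₁)`, `B₀₁ = Γ(C, U₀ ⊓ U₁)`, the restriction maps, `x₀ = x`, `z₁ = y`
and the base point `e : B₁ → k` (evaluation at the marked point), and the proof of `𝒞.IsGood`.

* `algSec c U`           : the `k`-algebra structure of `Γ(C, U)` (constants = `kSec c U`);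
* `resAlg c h`           : restriction of sections as a `k`-algebra homomorphism;
* `evalPt e U hU`        : evaluation at a `k`-point, `evalAlg` as a `k`-algebra homomorphism;
* `datum`                : the curve datum;
* `datum_isGood`         : `IsGood` (localisations, domains, finiteness over `k[x]`, `k[y]`,
                           smoothness, `H⁰(C, 𝒪) = k`);
* `Stmt_DATUM`, `stmt_DATUM_of` : the packaged statement, from `Stmt_BCOVER`.
-/
import Fermat.Agent.S25.Curve.H93_H0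
import Fermat.Agent.S25.LB.Defs

set_option autoImplicit false
set_option linter.style.haveILetI false

universe u

open CategoryTheory CategoryTheory.Limits AlgebraicGeometry Polynomial Opposite

namespace Fermat.Agent.S25.Curve.H84

variable {k : Type u} [Field k] {C : Scheme.{u}}

/-- The `k`-algebra structure of the sections over `U`. -/
@[reducible] noncomputable def algSec (c : C ⟶ Spec (CommRingCat.of k)) (U : C.Opens) :
    Algebra k Γ(C, U) :=
  (kSec c U).toAlgebra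

/-- Restriction is compatible with the constants. -/
theorem res_kSec (c : C ⟶ Spec (CommRingCat.of k)) {U V : C.Opens} (h : V ≤ U) (a : k) :
    res h (kSec c U a) = kSec c V a := by
  have h1 : c.appLE ⊤ U le_top ≫ C.presheaf.map (homOfLE h).op = c.appLE ⊤ V le_top :=
    Scheme.Hom.appLE_map c le_top (homOfLE h).op
  have h2 := congrArg (fun φ => φ.hom ((Scheme.ΓSpecIso (CommRingCat.of k)).inv.hom a)) h1
  exact h2

/-- Restriction as a `k`-algebra homomorphism. -/
noncomputable def resAlg (c : C ⟶ Spec (CommRingCat.of k)) {U V : C.Opens} (h : V ≤ U) :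
    letI := algSec c U
    letI := algSec c V
    Γ(C, U) →ₐ[k] Γ(C, V) :=
  letI := algSec c U
  letI := algSec c V
  { res h with
    commutes' := fun a => res_kSec c h a }

/-- Evaluation of the sections over `U` at a `k`-point `e` lying in `U`. -/
noncomputable def evalPt (e : Spec (CommRingCat.of k) ⟶ C) (U : C.Opens)
    (hU : ∀ z, e z ∈ U) : Γ(C, U) →+* k :=
  (Scheme.ΓSpecIso (CommRingCat.of k)).hom.hom.comp
    (e.appLE U ⊤ (fun z _ => hU z)).hom

/-- Evaluation at a section of the structure map is the identity on the constants. -/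
theorem evalPt_kSec (c : C ⟶ Spec (CommRingCat.of k)) (e : Spec (CommRingCat.of k) ⟶ C)
    (he : e ≫ c = 𝟙 _) (U : C.Opens) (hU : ∀ z, e z ∈ U) (a : k) :
    evalPt e U hU (kSec c U a) = a := by
  have h1 : c.appLE ⊤ U le_top ≫ e.appLE U ⊤ (fun z _ => hU z)
      = (e ≫ c).appLE ⊤ ⊤ le_top :=
    Scheme.Hom.appLE_comp_appLE e c ⊤ U ⊤ le_top (fun z _ => hU z)
  have h2 : (e ≫ c).appLE ⊤ ⊤ le_top = 𝟙 _ := by
    simp only [he]
    simp [Scheme.Hom.appLE]
  rw [h2] at h1
  have h3 := congrArg (fun φ => φ.hom ((Scheme.ΓSpecIso (CommRingCat.of k)).inv.hom a)) h1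
  have h4 : (e.appLE U ⊤ (fun z _ => hU z)).hom (kSec c U a)
      = (Scheme.ΓSpecIso (CommRingCat.of k)).inv.hom a := h3
  unfold evalPt
  rw [RingHom.comp_apply, h4]
  exact congrArg (fun φ => φ.hom a) (Scheme.ΓSpecIso (CommRingCat.of k)).inv_hom_id

/-- Evaluation at a `k`-point as a `k`-algebra homomorphism. -/
noncomputable def evalAlg (c : C ⟶ Spec (CommRingCat.of k)) (e : Spec (CommRingCat.of k) ⟶ C)
    (he : e ≫ c = 𝟙 _) (U : C.Opens) (hU : ∀ z, e z ∈ U) :
    letI := algSec c U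
    Γ(C, U) →ₐ[k] k :=
  letI := algSec c U
  { evalPt e U hU with
    commutes' := fun a => evalPt_kSec c e he U hU a }

/-- A section which does not vanish at the point `e` is invertible at `e`. -/
theorem mem_basicOpen_of_evalPt_ne_zero (e : Spec (CommRingCat.of k) ⟶ C) (U : C.Opens)
    (hU : ∀ z, e z ∈ U) (s : Γ(C, U)) (hs : evalPt e U hU s ≠ 0) (z) :
    e z ∈ C.basicOpen s := by
  have hunit : IsUnit ((e.appLE U ⊤ (fun z _ => hU z)).hom s) := by
    have h1 : IsUnit (evalPt e U hU s) := IsUnit.mk0 _ hs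
    have h2 := h1.map (Scheme.ΓSpecIso (CommRingCat.of k)).inv.hom
    have h3 : (Scheme.ΓSpecIso (CommRingCat.of k)).inv.hom (evalPt e U hU s)
        = (e.appLE U ⊤ (fun z _ => hU z)).hom s := by
      unfold evalPt
      rw [RingHom.comp_apply]
      exact congrArg (fun φ => φ.hom ((e.appLE U ⊤ (fun z _ => hU z)).hom s))
        (Scheme.ΓSpecIso (CommRingCat.of k)).hom_inv_id
    rwa [h3] at h2
  have h4 : (Spec (CommRingCat.of k)).basicOpen ((e.appLE U ⊤ (fun z _ => hU z)).hom s) = ⊤ :=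
    (Scheme.basicOpen_of_isUnit _ hunit)
  have h5 : (Spec (CommRingCat.of k)).basicOpen ((e.appLE U ⊤ (fun z _ => hU z)).hom s)
      ≤ e ⁻¹ᵁ C.basicOpen s := by
    rw [Scheme.preimage_basicOpen]
    have h6 : (e.appLE U ⊤ (fun z _ => hU z)).hom s
        = ((Spec (CommRingCat.of k)).presheaf.map
            (homOfLE (fun z _ => hU z : (⊤ : (Spec (CommRingCat.of k)).Opens) ≤ e ⁻¹ᵁ U)).op).hom
          ((e.app U).hom s) := rfl
    rw [h6]
    exact (Scheme.basicOpen_res _ _ _).le.trans inf_le_right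
  have h7 : z ∈ (Spec (CommRingCat.of k)).basicOpen ((e.appLE U ⊤ (fun z _ => hU z)).hom s) := by
    rw [h4]; trivial
  exact h5 h7

/-- **The curve datum of a two-chart cover.** -/
noncomputable def datum (c : C ⟶ Spec (CommRingCat.of k)) (U₀ U₁ : C.Opens)
    (x : Γ(C, U₀)) (y : Γ(C, U₁)) (h : IsTwoChart U₀ U₁ x y)
    (e : Spec (CommRingCat.of k) ⟶ C) (he : e ≫ c = 𝟙 _)
    (hU : ∀ z, e z ∈ U₁ ∧ e z ∉ U₀) : LB.CurveDatum k :=
  letI := algSec c U₀
  letI := algSec c U₁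
  letI := algSec c (U₀ ⊓ U₁)
  { B0 := Γ(C, U₀)
    B1 := Γ(C, U₁)
    B01 := Γ(C, U₀ ⊓ U₁)
    alg0 := algSec c U₀
    alg1 := algSec c U₁
    alg01 := algSec c (U₀ ⊓ U₁)
    i0 := resAlg c inf_le_left
    i1 := resAlg c inf_le_right
    x0 := x
    z1 := y
    hxz := h.mul_eq_one
    e := evalAlg c e he U₁ (fun z => (hU z).1)
    he := by
      by_contra hne
      have z : (Spec (CommRingCat.of k) : Scheme.{u}) := Classical.arbitrary _
      have h1 := mem_basicOpen_of_evalPt_ne_zero e U₁ (fun z => (hU z).1) y hne z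
      rw [h.basic₁] at h1
      exact (hU z).2 h1.1 }

/-! ## The properties -/

/-- `aeval` for the algebra structure `algSec` is `polyTo`. -/
theorem aeval_eq_polyTo (c : C ⟶ Spec (CommRingCat.of k)) (U : C.Opens) (x : Γ(C, U)) :
    letI := algSec c U
    (Polynomial.aeval (R := k) x).toRingHom = polyTo c U x := by
  letI := algSec c U
  apply Polynomial.ringHom_ext
  · intro a
    simp [polyTo, RingHom.algebraMap_toAlgebra]
  · simp [polyTo]

/-- The sections over an affine open of a smooth `k`-scheme are a smooth `k`-algebra. -/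
theorem smooth_algSec (c : C ⟶ Spec (CommRingCat.of k)) [Smooth c] (U : C.Opens)
    (hU : IsAffineOpen U) :
    letI := algSec c U
    Algebra.Smooth k Γ(C, U) := by
  have h1 : (c.appLE ⊤ U le_top).hom.Smooth :=
    Smooth.smooth_appLE c (isAffineOpen_top (Spec (CommRingCat.of k))) hU le_top
  have h2 : (Scheme.ΓSpecIso (CommRingCat.of k)).inv.hom.Smooth :=
    RingHom.Smooth.of_bijective
      (ConcreteCategory.bijective_of_isIso (Scheme.ΓSpecIso (CommRingCat.of k)).inv)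
  have h3 : (kSec c U).Smooth := RingHom.Smooth.comp h2 h1
  exact h3

/-- Gluing of two sections which agree on the overlap of a cover to a constant. -/
theorem exists_const_of_res_eq [IsAlgClosed k] (c : C ⟶ Spec (CommRingCat.of k)) [IsProper c]
    [IsIntegral C] (U₀ U₁ : C.Opens) (hcov : U₀ ⊔ U₁ = ⊤) (b0 : Γ(C, U₀)) (b1 : Γ(C, U₁))
    (hb : res (inf_le_left : U₀ ⊓ U₁ ≤ U₀) b0 = res (inf_le_right : U₀ ⊓ U₁ ≤ U₁) b1) :
    ∃ a : k, b0 = kSec c U₀ a := by
  have hbij : Function.Bijective (kSec c (U₀ ⊔ U₁)) := by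
    rw [hcov]
    exact H93.stmt_H0 k c
  let s : Γ(C, U₀ ⊔ U₁) := (C.sheaf.objSupIsoProdEqLocus U₀ U₁).inv ⟨(b0, b1), hb⟩
  have hs0 : res (le_sup_left : U₀ ≤ U₀ ⊔ U₁) s = b0 :=
    TopCat.Sheaf.objSupIsoProdEqLocus_inv_fst C.sheaf U₀ U₁ ⟨(b0, b1), hb⟩
  obtain ⟨a, ha⟩ := hbij.2 s
  refine ⟨a, ?_⟩
  rw [← hs0, ← ha, res_kSec]

/-- **The curve datum of a two-chart cover of a proper smooth integral curve is good.** -/
theorem datum_isGood [IsAlgClosed k] (c : C ⟶ Spec (CommRingCat.of k)) [IsProper c]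
    [Smooth c] [IsIntegral C] (U₀ U₁ : C.Opens)
    (x : Γ(C, U₀)) (y : Γ(C, U₁)) (h : IsTwoChart U₀ U₁ x y)
    (e : Spec (CommRingCat.of k) ⟶ C) (he : e ≫ c = 𝟙 _)
    (hU : ∀ z, e z ∈ U₁ ∧ e z ∉ U₀)
    (hA₀ : IsAffineOpen U₀) (hA₁ : IsAffineOpen U₁)
    (hf₀ : (polyTo c U₀ x).Finite) (hf₁ : (polyTo c U₁ y).Finite)
    (hi₀ : Function.Injective (polyTo c U₀ x)) :
    (datum c U₀ U₁ x y h e he hU).IsGood := by
  -- the three opens are nonempty
  have hne1 : Nonempty U₁ := ⟨⟨e (Classical.arbitrary _), (hU _).1⟩⟩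
  have hne0 : Nonempty U₀ := by
    by_contra hemp
    rw [not_nonempty_iff] at hemp
    have hbot : U₀ = ⊥ := by
      ext p
      simp only [TopologicalSpace.Opens.coe_bot, Set.mem_empty_iff_false, iff_false]
      exact fun hp => hemp.false ⟨p, hp⟩
    subst hbot
    have hsub : Subsingleton Γ(C, (⊥ : C.Opens)) := inferInstance
    exact (hi₀.ne (a₁ := (1 : k[X])) (a₂ := 0) one_ne_zero) (Subsingleton.elim _ _)
  have hne01 : Nonempty (U₀ ⊓ U₁ : C.Opens) := by
    obtain ⟨p, hp⟩ := nonempty_preirreducible_inter U₀.2 U₁.2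
      (by obtain ⟨p⟩ := hne0; exact ⟨p.1, p.2⟩)
      (by obtain ⟨p⟩ := hne1; exact ⟨p.1, p.2⟩)
    exact ⟨⟨p, hp⟩⟩
  refine
    { loc0 := hA₀.isLocalization_of_eq_basicOpen x (homOfLE inf_le_left) h.basic₀.symm
      loc1 := hA₁.isLocalization_of_eq_basicOpen y (homOfLE inf_le_right) h.basic₁.symm
      dom0 := inferInstanceAs (IsDomain Γ(C, U₀))
      dom1 := inferInstanceAs (IsDomain Γ(C, U₁))
      dom01 := inferInstanceAs (IsDomain Γ(C, U₀ ⊓ U₁))
      fin0 := ?_
      fin1 := ?_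
      trans0 := ?_
      smooth0 := smooth_algSec c U₀ hA₀
      smooth1 := smooth_algSec c U₁ hA₁
      h0 := ?_ }
  · have h1 := aeval_eq_polyTo c U₀ x
    change (letI := algSec c U₀; (Polynomial.aeval (R := k) x).toRingHom).Finite
    rw [h1]
    exact hf₀
  · have h1 := aeval_eq_polyTo c U₁ y
    change (letI := algSec c U₁; (Polynomial.aeval (R := k) y).toRingHom).Finite
    rw [h1]
    exact hf₁
  · have h1 := aeval_eq_polyTo c U₀ x
    intro p q hpq
    apply hi₀
    rw [← h1]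
    exact hpq
  · intro b0 b1 hb
    exact exists_const_of_res_eq c U₀ U₁ h.cover b0 b1 hb

/-! ## The packaged statements -/

/-- **CURVE-DATUM**: a proper smooth integral curve with a `k`-point has a good curve datum made of
the sections over two affine opens `U₀`, `U₁` (the marked point in `U₁ ∖ U₀`). -/
def Stmt_DATUM : Prop :=
  ∀ (k : Type u) [Field k] [IsAlgClosed k] {C : Scheme.{u}} (c : C ⟶ Spec (CommRingCat.of k))
    [IsProper c] [SmoothOfRelativeDimension 1 c] [IsIntegral C]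
    (e : Spec (CommRingCat.of k) ⟶ C) (he : e ≫ c = 𝟙 _),
    ∃ (U₀ U₁ : C.Opens) (x : Γ(C, U₀)) (y : Γ(C, U₁)) (h : IsTwoChart U₀ U₁ x y)
      (hU : ∀ z, e z ∈ U₁ ∧ e z ∉ U₀),
      IsAffineOpen U₀ ∧ IsAffineOpen U₁ ∧ (datum c U₀ U₁ x y h e he hU).IsGood

/-- **CURVE-DATUM-SEP**: the same with a separating variable `x` (`BCOVER-SEP`). -/
def Stmt_DATUM_SEP : Prop :=
  ∀ (k : Type u) [Field k] [IsAlgClosed k] {C : Scheme.{u}} (c : C ⟶ Spec (CommRingCat.of k))
    [IsProper c] [SmoothOfRelativeDimension 1 c] [IsIntegral C]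
    (e : Spec (CommRingCat.of k) ⟶ C) (he : e ≫ c = 𝟙 _),
    ∃ (U₀ U₁ : C.Opens) (x : Γ(C, U₀)) (y : Γ(C, U₁)) (h : IsTwoChart U₀ U₁ x y)
      (hU : ∀ z, e z ∈ U₁ ∧ e z ∉ U₀),
      IsAffineOpen U₀ ∧ IsAffineOpen U₁ ∧ (datum c U₀ U₁ x y h e he hU).IsGood ∧
      ∃ g : Γ(C, U₀), g ≠ 0 ∧ ((res (C.basicOpen_le g)).comp (polyTo c U₀ x)).Etale

/-- `Stmt_DATUM` from the two-chart cover. -/
theorem stmt_DATUM_of (hB : Stmt_BCOVER.{u}) : Stmt_DATUM.{u} := by
  intro k _ _ C c _ _ _ e he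
  obtain ⟨U₀, U₁, x, y, h, hA₀, hA₁, hU, hf₀, hf₁, hi₀, -⟩ := hB k c e he
  haveI : Smooth c := SmoothOfRelativeDimension.smooth 1 c
  exact ⟨U₀, U₁, x, y, h, hU, hA₀, hA₁,
    datum_isGood c U₀ U₁ x y h e he hU hA₀ hA₁ hf₀ hf₁ hi₀⟩

/-- `Stmt_DATUM_SEP` from the two-chart cover with a separating variable. -/
theorem stmt_DATUM_SEP_of (hB : Stmt_BCOVER_SEP.{u}) : Stmt_DATUM_SEP.{u} := by
  intro k _ _ C c _ _ _ e he
  obtain ⟨U₀, U₁, x, y, h, hA₀, hA₁, hU, hf₀, hf₁, hi₀, -, g, hg, hét⟩ := hB k c e he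
  haveI : Smooth c := SmoothOfRelativeDimension.smooth 1 c
  exact ⟨U₀, U₁, x, y, h, hU, hA₀, hA₁,
    datum_isGood c U₀ U₁ x y h e he hU hA₀ hA₁ hf₀ hf₁ hi₀, g, hg, hét⟩

end Fermat.Agent.S25.Curve.H84
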