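/-
helper93, S25 (Jacobian exists), package CURVE, leaf CURVE-POLE.

`stmt_POLE : Stmt_POLE`: the local ring of the curve at a rational point has a uniformiser.

Proof.  A rational point `e z` is not the generic point: otherwise the stalk map of `e` at `z` would embed the
function field `K(C)` into the stalk of `Spec k` at `z`, which consists of constants, so `k → K(C)` would be
onto, against `trdeg_k K(C) = 1` (helper8, `S26.G.H8.trdeg_functionField`).  Hence `e z` has codimension one
(helper51, `H51.coheight_eq_one`) and its local ring is a discrete valuation ring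
(helper39, `S26.H39.isDiscreteValuationRing_stalk`).
-/
import Fermat.Agent.S25.Curve.DefsB
import Fermat.Agent.S25.Curve.H51_Dim1

set_option autoImplicit false

universe u

open CategoryTheory CategoryTheory.Limits AlgebraicGeometry Polynomial

namespace Fermat.Agent.S25.Curve.H93P

open Fermat.Agent.S25.Curve

variable {k : Type u} [Field k]

/-- Every germ at a point of `Spec k` is a constant. -/
theorem exists_const_germ (z : Spec (CommRingCat.of k))
    (s : (Spec (CommRingCat.of k)).presheaf.stalk z) :
    ∃ t : Γ(Spec (CommRingCat.of k), ⊤),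
      (Spec (CommRingCat.of k)).presheaf.germ ⊤ z trivial t = s := by
  obtain ⟨U, hzU, t, ht⟩ := (Spec (CommRingCat.of k)).presheaf.exists_germ_eq s
  have hU : U = ⊤ := by
    ext y
    simp only [TopologicalSpace.Opens.coe_top, Set.mem_univ, iff_true]
    rw [Subsingleton.elim y z]
    exact hzU
  subst hU
  exact ⟨t, ht⟩

variable {C : Scheme.{u}} (c : C ⟶ Spec (CommRingCat.of k))

/-- A rational point is not the generic point of a curve. -/
theorem ne_genericPoint [IsIntegral C] [SmoothOfRelativeDimension 1 c]
    (e : Spec (CommRingCat.of k) ⟶ C) (he : e ≫ c = 𝟙 _) (z : Spec (CommRingCat.of k)) :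
    e z ≠ genericPoint C := by
  intro hη
  have : Nonempty (⊤ : C.Opens) := ⟨⟨Classical.arbitrary C, trivial⟩⟩
  -- the embedding of the function field into the stalk of `Spec k`
  let θ : C.functionField →+* C.presheaf.stalk (e z) :=
    (C.presheaf.stalkSpecializes (specializes_of_eq hη)).hom
  let τ : C.presheaf.stalk (e z) →+* (Spec (CommRingCat.of k)).presheaf.stalk z :=
    (e.stalkMap z).hom
  let σ : C.functionField →+* (Spec (CommRingCat.of k)).presheaf.stalk z := τ.comp θ
  have hσ : Function.Injective σ := RingHom.injective σ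
  have hconst : ∀ t : Γ(Spec (CommRingCat.of k), ⊤),
      σ (C.germToFunctionField ⊤ (c.appTop.hom t)) =
        (Spec (CommRingCat.of k)).presheaf.germ ⊤ z trivial t := by
    intro t
    have h1 : θ (C.germToFunctionField ⊤ (c.appTop.hom t)) =
        C.presheaf.germ ⊤ (e z) trivial (c.appTop.hom t) :=
      TopCat.Presheaf.germ_stalkSpecializes_apply C.presheaf
        (U := ⊤) (y := genericPoint C) trivial (specializes_of_eq hη) (c.appTop.hom t)
    change τ (θ _) = _
    rw [h1]
    have h2 := Scheme.Hom.germ_stalkMap_apply e ⊤ z trivial (c.appTop.hom t)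
    change τ _ = _ at h2
    rw [h2]
    have h3 : e.app ⊤ (c.appTop.hom t) = t := by
      have h4 : (e ≫ c).appTop = 𝟙 _ := by rw [he]; rfl
      rw [Scheme.Hom.comp_appTop] at h4
      have h5 := congrArg (fun φ => φ.hom t) h4
      exact h5
    rw [h3]
    rfl
  -- the constants are everything
  let _ : Algebra k C.functionField := (Fermat.Agent.S26.constHom c).toAlgebra
  have hsurj : Function.Surjective (algebraMap k C.functionField) := by
    intro f
    obtain ⟨t, ht⟩ := exists_const_germ z (σ f)
    refine ⟨(Scheme.ΓSpecIso (CommRingCat.of k)).hom.hom t, ?_⟩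
    apply hσ
    rw [← ht, ← hconst t]
    change σ (C.germToFunctionField ⊤ (c.appTop.hom
      ((Scheme.ΓSpecIso (CommRingCat.of k)).inv.hom ((Scheme.ΓSpecIso (CommRingCat.of k)).hom.hom t)))) = _
    congr 3
    exact congrArg (fun φ => φ.hom t) (Scheme.ΓSpecIso (CommRingCat.of k)).hom_inv_id
  have halg : Algebra.IsAlgebraic k C.functionField :=
    ⟨fun f => by
      obtain ⟨a, rfl⟩ := hsurj f
      exact isAlgebraic_algebraMap a⟩
  have h0 : Algebra.trdeg k C.functionField = 0 := _root_.trdeg_eq_zero
  have h1 : Algebra.trdeg k C.functionField = 1 := by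
    have := Fermat.Agent.S26.G.H8.trdeg_functionField c 1
    exact_mod_cast this
  rw [h0] at h1
  exact zero_ne_one h1

/-- **CURVE-POLE**. -/
theorem stmt_POLE : Stmt_POLE.{u} := by
  intro k _ C c _ _ _ e he z
  have : Smooth c := SmoothOfRelativeDimension.smooth 1 c
  have : IsLocallyNoetherian C := LocallyOfFiniteType.isLocallyNoetherian c
  have hne := ne_genericPoint c e he z
  have hco := H51.coheight_eq_one c (e z) hne
  have hdvr := Fermat.Agent.S26.H39.isDiscreteValuationRing_stalk c (e z) hco
  obtain ⟨ϖ, hϖ⟩ := IsDiscreteValuationRing.exists_irreducible (C.presheaf.stalk (e z))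
  exact ⟨ϖ, hϖ.ne_zero, hϖ.maximalIdeal_eq⟩

end Fermat.Agent.S25.Curve.H93P
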